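import Fermat.Agent.Lib.Period.ParDimAbstract
import Fermat.Agent.Lib.RR.Cosets
import Fermat.Agent.Lib.RR.G1Perm
import Fermat.Prelude.Def_ModularCurve_PeriodMap
import Fermat.Prelude.Def_ModularCurve_GenusNumerics

/-!
# `dim Hom_par(Γ₀(N), ℂ) ≤ 2 g(X₀(N))` (S21 WP D)

* `pmD_finite_parabolicHoms : Module.Finite ℂ (parabolicHoms ℂ (Gamma0 N) ℂ)`
* `pmD_finrank_parabolicHoms_le :
    (finrank ℂ (parabolicHoms ℂ (Gamma0 N) ℂ) : ℚ) ≤ 2 * genusFormula N`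

Inputs: the abstract bound `pmD_abstract_bound`, `SL(2, ℤ) = ⟨S, T⟩`, `S² = (ST)³ = -1 ∈ Γ₀(N)`
central, the counts of fixed points of `S`, `ST` and of orbits of `T` on `SL(2, ℤ) ⧸ Γ₀(N)`
(`Lib/RR/Cosets*`), and the dimensions of invariants of permutation operators (`Lib/RR/G1Perm`).
-/

set_option autoImplicit false

namespace Fermat.Agent.Lib.Period

open Module Matrix Matrix.SpecialLinearGroup CongruenceSubgroup ModularGroup ModularCurve
  ModularCurve.Period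

open scoped MatrixGroups

section Concrete

variable (N : ℕ)

theorem pmD_neg_one_mem_Gamma0 : (-1 : SL(2, ℤ)) ∈ Gamma0 N := by
  rw [Gamma0_mem]
  simp

theorem pmD_S_mul_S : (S * S : SL(2, ℤ)) = -1 := by
  ext i j
  simp only [Matrix.SpecialLinearGroup.coe_mul, Matrix.SpecialLinearGroup.coe_neg,
    Matrix.SpecialLinearGroup.coe_one, coe_S]
  fin_cases i <;> fin_cases j <;> simp [Matrix.mul_apply, Fin.sum_univ_two]

theorem pmD_ST_cube : (S * T * (S * T) * (S * T) : SL(2, ℤ)) = -1 := by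
  ext i j
  simp only [Matrix.SpecialLinearGroup.coe_mul, Matrix.SpecialLinearGroup.coe_neg,
    Matrix.SpecialLinearGroup.coe_one, coe_S, coe_T]
  fin_cases i <;> fin_cases j <;> simp [Matrix.mul_apply, Fin.sum_univ_two]

theorem pmD_neg_one_central (g : SL(2, ℤ)) : g * (-1) = (-1) * g := by
  rw [mul_neg, neg_mul, mul_one, one_mul]

theorem pmD_neg_one_sq : ((-1 : SL(2, ℤ)) * (-1)) = 1 := by
  rw [neg_mul_neg, one_mul]

theorem pmD_trace_conj_T_pow (g : SL(2, ℤ)) (n : ℕ) :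
    ((g⁻¹ * T ^ n * g : SL(2, ℤ)) : Matrix (Fin 2) (Fin 2) ℤ).trace = 2 := by
  rw [Matrix.SpecialLinearGroup.coe_mul, Matrix.SpecialLinearGroup.coe_mul,
    Matrix.trace_mul_cycle, ← Matrix.SpecialLinearGroup.coe_mul, mul_inv_cancel,
    Matrix.SpecialLinearGroup.coe_one, one_mul, ← zpow_natCast, coe_T_zpow,
    Matrix.trace_fin_two_of]
  norm_num

/-- For a parabolic homomorphism, the norm of the value of the Shapiro cocycle at `T` vanishes. -/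
theorem pmD_hpar {ψ : Additive (Gamma0 N) →+ ℂ} (hψ : ψ ∈ parabolicHoms ℂ (Gamma0 N) ℂ) :
    pmD_norm T N (pmD_coc (Gamma0 N) T ψ) = 0 := by
  have hc := (pmD_isCoc_coc (Gamma0 N) ψ).pow T N
  rw [pmD_norm_apply, ← hc]
  funext x
  have hx : T ^ N • x = x := Fermat.Agent.Lib.RR.Cosets.T_pow_smul N x
  have hmem : x.out⁻¹ * T ^ N * x.out ∈ Gamma0 N := by
    have := (pmD_kappa (Gamma0 N) (T ^ N) x).2
    simp only [pmD_kappa, hx] at this
    exact this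
  rw [pmD_coc_apply_of_smul_eq (Gamma0 N) hx ψ hmem, Pi.zero_apply]
  refine hψ _ ?_
  show ((x.out⁻¹ * T ^ N * x.out : SL(2, ℤ)) : Matrix (Fin 2) (Fin 2) ℤ).trace ^ 2 = 4
  rw [pmD_trace_conj_T_pow]
  norm_num

section PermDims

variable {G : Type*} [Group G] {X : Type*} [MulAction G X]

theorem pmD_ker_eq_eigenspace (g : G) :
    LinearMap.ker (pmD_P g - LinearMap.id : (X → ℂ) →ₗ[ℂ] (X → ℂ)) =
      End.eigenspace (LinearMap.funLeft ℂ ℂ (MulAction.toPerm g : Equiv.Perm X) :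
        End ℂ (X → ℂ)) 1 := by
  rw [End.eigenspace_def, one_smul]
  rfl

theorem pmD_ncard_fixedPoints (g : G) :
    (Function.fixedPoints ((MulAction.toPerm g : Equiv.Perm X) : X → X)).ncard =
      Nat.card (MulAction.fixedBy X g) := by
  rw [← Nat.card_coe_set_eq]
  rfl

/-- If `g²` acts trivially then `2 dim V^g = |X| + #Fix(g)`. -/
theorem pmD_two_mul_finrank_ker [Fintype X] (g : G) (hg : ∀ x : X, (g * g) • x = x) :
    2 * finrank ℂ (LinearMap.ker (pmD_P g - LinearMap.id : (X → ℂ) →ₗ[ℂ] (X → ℂ))) =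
      Fintype.card X + Nat.card (MulAction.fixedBy X g) := by
  classical
  rw [pmD_ker_eq_eigenspace, ← pmD_ncard_fixedPoints]
  refine Fermat.Agent.Lib.RR.g1_two_mul_finrank_eigenspace_one _ ?_
  ext x
  rw [pow_two, Equiv.Perm.mul_apply, MulAction.toPerm_apply, MulAction.toPerm_apply, ← mul_smul,
    hg, Equiv.Perm.one_apply]

/-- If `g³` acts trivially then `3 dim V^g = |X| + 2 #Fix(g)`. -/
theorem pmD_three_mul_finrank_ker [Fintype X] (g : G) (hg : ∀ x : X, (g * g * g) • x = x) :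
    3 * finrank ℂ (LinearMap.ker (pmD_P g - LinearMap.id : (X → ℂ) →ₗ[ℂ] (X → ℂ))) =
      Fintype.card X + 2 * Nat.card (MulAction.fixedBy X g) := by
  classical
  rw [pmD_ker_eq_eigenspace, ← pmD_ncard_fixedPoints]
  refine Fermat.Agent.Lib.RR.g1_three_mul_finrank_eigenspace_one _ ?_
  ext x
  rw [pow_succ, pow_two, Equiv.Perm.mul_apply, Equiv.Perm.mul_apply, MulAction.toPerm_apply,
    MulAction.toPerm_apply, MulAction.toPerm_apply, ← mul_smul, ← mul_smul, hg,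
    Equiv.Perm.one_apply]

end PermDims

/-- `Hom(Γ₀(N), ℂ)` is finite-dimensional. -/
theorem pmD_finite_hom_Gamma0 [NeZero N] : Module.Finite ℂ (Additive (Gamma0 N) →+ ℂ) :=
  pmD_finite_hom (Gamma0 N) S T SpecialLinearGroup.SL2Z_generators

/-- The space of parabolic homomorphisms `Γ₀(N) → ℂ` is finite-dimensional. -/
instance pmD_finite_parabolicHoms [NeZero N] :
    Module.Finite ℂ (parabolicHoms ℂ (Gamma0 N) ℂ) := by
  have := pmD_finite_hom_Gamma0 N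
  infer_instance

/-- **Dimension bound**: `dim Hom_par(Γ₀(N), ℂ) ≤ 2 g(X₀(N))`. -/
theorem pmD_finrank_parabolicHoms_le [NeZero N] :
    (finrank ℂ (parabolicHoms ℂ (Gamma0 N) ℂ) : ℚ) ≤ 2 * genusFormula N := by
  classical
  have : Fintype (SL(2, ℤ) ⧸ Gamma0 N) := Fintype.ofFinite _
  have hneg : ∀ x : SL(2, ℤ) ⧸ Gamma0 N, (-1 : SL(2, ℤ)) • x = x :=
    pmD_smul_eq_of_central (Gamma0 N) pmD_neg_one_central (pmD_neg_one_mem_Gamma0 N)
  have hcoc : ∀ ψ : Additive (Gamma0 N) →+ ℂ, pmD_coc (Gamma0 N) (-1) ψ = 0 :=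
    pmD_coc_central (Gamma0 N) pmD_neg_one_central (pmD_neg_one_mem_Gamma0 N) pmD_neg_one_sq
  have h := pmD_abstract_bound (Gamma0 N) S T SpecialLinearGroup.SL2Z_generators (NeZero.ne N)
    (Fermat.Agent.Lib.RR.Cosets.T_pow_smul N) (parabolicHoms ℂ (Gamma0 N) ℂ)
    (fun ψ _ => by rw [pmD_S_mul_S]; exact hcoc ψ)
    (fun ψ _ => by rw [pmD_ST_cube]; exact hcoc ψ)
    (fun ψ hψ => pmD_hpar N hψ)
  have hS := pmD_two_mul_finrank_ker (X := SL(2, ℤ) ⧸ Gamma0 N) S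
    (fun x => by rw [pmD_S_mul_S]; exact hneg x)
  have hU := pmD_three_mul_finrank_ker (X := SL(2, ℤ) ⧸ Gamma0 N) (S * T)
    (fun x => by rw [pmD_ST_cube]; exact hneg x)
  rw [Fermat.Agent.Lib.RR.Cosets.card_fixedBy_S] at hS
  rw [Fermat.Agent.Lib.RR.Cosets.card_fixedBy_ST] at hU
  rw [Fermat.Agent.Lib.RR.Cosets.card_orbits_T] at h
  have hcard : Fintype.card (SL(2, ℤ) ⧸ Gamma0 N) = dedekindPsi N := by
    rw [← Nat.card_eq_fintype_card, Fermat.Agent.Lib.RR.Cosets.card_quotient_Gamma0]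
  rw [hcard] at h hS hU
  have hq : (finrank ℂ (parabolicHoms ℂ (Gamma0 N) ℂ) : ℚ) +
      (finrank ℂ (LinearMap.ker (pmD_P S - LinearMap.id :
        ((SL(2, ℤ) ⧸ Gamma0 N) → ℂ) →ₗ[ℂ] ((SL(2, ℤ) ⧸ Gamma0 N) → ℂ))) : ℚ) +
      (finrank ℂ (LinearMap.ker (pmD_P (S * T) - LinearMap.id :
        ((SL(2, ℤ) ⧸ Gamma0 N) → ℂ) →ₗ[ℂ] ((SL(2, ℤ) ⧸ Gamma0 N) → ℂ))) : ℚ) +
      (cuspCount N : ℚ) ≤ (dedekindPsi N : ℚ) + 2 := by
    exact_mod_cast h
  have hSq : (2 : ℚ) * (finrank ℂ (LinearMap.ker (pmD_P S - LinearMap.id :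
        ((SL(2, ℤ) ⧸ Gamma0 N) → ℂ) →ₗ[ℂ] ((SL(2, ℤ) ⧸ Gamma0 N) → ℂ))) : ℚ) =
      (dedekindPsi N : ℚ) + (nuTwo N : ℚ) := by
    exact_mod_cast hS
  have hUq : (3 : ℚ) * (finrank ℂ (LinearMap.ker (pmD_P (S * T) - LinearMap.id :
        ((SL(2, ℤ) ⧸ Gamma0 N) → ℂ) →ₗ[ℂ] ((SL(2, ℤ) ⧸ Gamma0 N) → ℂ))) : ℚ) =
      (dedekindPsi N : ℚ) + 2 * (nuThree N : ℚ) := by
    exact_mod_cast hU
  rw [genusFormula]
  linarith

end Concrete

end Fermat.Agent.Lib.Period
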