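import Fermat.Agent.Lib.Period.Parabolic
import Fermat.Prelude.Def_ModularCurve_GenusNumerics

set_option autoImplicit false

/-!
# S21: `periodHomPair` in terms of the linear period map; range inside the parabolic classes;
final assembly from injectivity + the dimension bound + S20
-/

open UpperHalfPlane CongruenceSubgroup ModularCurve ModularCurve.Period
open scoped MatrixGroups ModularForm

namespace Fermat.Agent.Lib.Period

open Fermat.Agent.Lib.RR

theorem pmP_periodHomPair_eq (N : ℕ) [NeZero N] :
    periodHomPair N = LinearMap.coprod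
      ((LinearMap.id + charInvolution N ℂ ℂ) ∘ₗ pmP_periodLin N)
      ((LinearMap.id - charInvolution N ℂ ℂ) ∘ₗ pmP_periodLin N) := by
  obtain ⟨pml, hpml, h⟩ := periodHomPair_def N (pmP_existsPeriodMapLinear N)
  have : pml = pmP_periodLin N := LinearMap.ext fun f => hpml f
  rw [h, this]

theorem pmP_periodHomPair_apply (N : ℕ) [NeZero N] (f g : CuspForm (Gamma0 N) 2)
    (γ : Gamma0 N) :
    periodHomPair N (f, g) (Additive.ofMul γ) =
      (periodMap N f (Additive.ofMul γ) + periodMap N f (Additive.ofMul (jConjGamma0 N γ))) +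
      (periodMap N g (Additive.ofMul γ) - periodMap N g (Additive.ofMul (jConjGamma0 N γ))) := by
  rw [pmP_periodHomPair_eq]
  simp only [LinearMap.coprod_apply, LinearMap.comp_apply, LinearMap.add_apply,
    LinearMap.sub_apply, LinearMap.id_apply, pmP_periodLin_apply, AddMonoidHom.add_apply,
    AddMonoidHom.sub_apply, charInvolution_apply, toMul_ofMul]

theorem pmP_periodHomPair_mem_parabolicHoms (N : ℕ) [NeZero N]
    (x : CuspForm (Gamma0 N) 2 × CuspForm (Gamma0 N) 2) :
    periodHomPair N x ∈ parabolicHoms ℂ (Gamma0 N) ℂ := by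
  rw [pmP_periodHomPair_eq]
  simp only [LinearMap.coprod_apply, LinearMap.comp_apply, LinearMap.add_apply,
    LinearMap.sub_apply, LinearMap.id_apply, pmP_periodLin_apply]
  have h1 := pmP_periodMap_mem_parabolicHoms N x.1
  have h2 := pmP_periodMap_mem_parabolicHoms N x.2
  exact Submodule.add_mem _
    (Submodule.add_mem _ h1 (charInvolution_mem_parabolicHoms N ℂ ℂ h1))
    (Submodule.sub_mem _ h2 (charInvolution_mem_parabolicHoms N ℂ ℂ h2))

theorem pmP_range_le (N : ℕ) [NeZero N] :
    LinearMap.range (periodHomPair N) ≤ parabolicHoms ℂ (Gamma0 N) ℂ := by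
  rintro _ ⟨x, rfl⟩
  exact pmP_periodHomPair_mem_parabolicHoms N x

instance pmP_finiteDimensional_cuspForm (N : ℕ) [NeZero N] (k : ℤ) :
    FiniteDimensional ℂ (CuspForm (Gamma0 N) k) := by
  have := finiteDimensional_CF N k
  exact LinearEquiv.finiteDimensional (equivCF N k).symm

/-- Final assembly of S21 from injectivity (WP I), the dimension bound (WP D) and S20. -/
theorem pmP_S21_of (N : ℕ) [NeZero N] (hinj : Function.Injective (periodHomPair N))
    (hS20 : (Module.finrank ℂ (CuspForm (Gamma0 N) 2) : ℚ) = genusFormula N)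
    [Module.Finite ℂ (parabolicHoms ℂ (Gamma0 N) ℂ)]
    (hdim : (Module.finrank ℂ (parabolicHoms ℂ (Gamma0 N) ℂ) : ℚ) ≤ 2 * genusFormula N) :
    Function.Injective (periodHomPair N) ∧
      LinearMap.range (periodHomPair N) = parabolicHoms ℂ (Gamma0 N) ℂ := by
  refine ⟨hinj, ?_⟩
  apply Submodule.eq_of_le_of_finrank_le (pmP_range_le N)
  rw [LinearMap.finrank_range_of_inj hinj, Module.finrank_prod]
  have h1 : (Module.finrank ℂ (parabolicHoms ℂ (Gamma0 N) ℂ) : ℚ) ≤
      ((Module.finrank ℂ (CuspForm (Gamma0 N) 2) + Module.finrank ℂ (CuspForm (Gamma0 N) 2) : ℕ) : ℚ) := by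
    push_cast
    rw [hS20]
    linarith
  exact_mod_cast h1

end Fermat.Agent.Lib.Period
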