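import Mathlib

/-!
# S21, WP I (part 1): a maximum-modulus principle on `Γ \ ℍ`

`E : ℍ → ℂ` holomorphic with `‖E‖` invariant under a finite index subgroup `Γ ≤ SL(2,ℤ)`, such that
every translate `E ∘ δ` (`δ ∈ SL(2,ℤ)`) is `h`-periodic and bounded at `i∞`, is constant.
-/

namespace Fermat.Agent.Lib.Period

open UpperHalfPlane hiding I
open Complex Filter Topology Function Metric
open scoped MatrixGroups Manifold ModularForm

local notation "𝕢" => Function.Periodic.qParam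

theorem pmI_slash_zero (E : ℍ → ℂ) (δ : SL(2, ℤ)) :
    (E ∣[(0 : ℤ)] δ) = fun z => E (δ • z) := by
  funext z
  simp [ModularForm.SL_slash_apply]

theorem pmI_mdifferentiable_comp_smul {E : ℍ → ℂ} (hol : MDiff E) (δ : SL(2, ℤ)) :
    MDiff (fun z => E (δ • z)) := by
  rw [← pmI_slash_zero, ModularForm.SL_slash]
  exact hol.slash 0 _

/-- Maximum modulus principle on the modular curve. -/
theorem pmI_const_of_norm_invariant {Γ : Subgroup SL(2, ℤ)} [Γ.FiniteIndex] {h : ℝ} (hh : 0 < h)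
    (E : ℍ → ℂ) (hol : MDiff E)
    (hinv : ∀ γ ∈ Γ, ∀ z : ℍ, ‖E (γ • z)‖ = ‖E z‖)
    (hper : ∀ δ : SL(2, ℤ), Function.Periodic ((fun z : ℍ => E (δ • z)) ∘ ofComplex) h)
    (hbdd : ∀ δ : SL(2, ℤ), IsBoundedAtImInfty (fun z : ℍ => E (δ • z))) :
    ∃ c : ℂ, ∀ z : ℍ, E z = c := by
  classical
  -- the translates and their cusp functions
  set Eδ : (SL(2, ℤ) ⧸ Γ) → ℍ → ℂ := fun q z => E (q.out⁻¹ • z) with hEδ
  set K : (SL(2, ℤ) ⧸ Γ) → ℂ → ℂ := fun q => cuspFunction h (Eδ q) with hK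
  have hKdiff : ∀ q, DifferentiableOn ℂ (K q) (ball 0 1) := fun q =>
    differentiableOn_cuspFunction_ball hh (hper _) (pmI_mdifferentiable_comp_smul hol _) (hbdd _)
  have hKeq : ∀ q (τ : ℍ), K q (𝕢 h τ) = E (q.out⁻¹ • τ) := fun q τ =>
    eq_cuspFunction τ hh.ne' (hper _)
  set r : ℝ := Real.exp (-Real.pi / h) with hr
  have hr0 : 0 ≤ r := (Real.exp_pos _).le
  have hr1 : r < 1 := by
    rw [hr, Real.exp_lt_one_iff]
    exact div_neg_of_neg_of_pos (neg_lt_zero.mpr Real.pi_pos) hh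
  -- maxima on the closed ball of radius `r`
  have hmax : ∀ q, ∃ x ∈ closedBall (0 : ℂ) r, IsMaxOn (norm ∘ K q) (closedBall 0 r) x := fun q =>
    (isCompact_closedBall (0 : ℂ) r).exists_isMaxOn (nonempty_closedBall.mpr hr0)
      ((hKdiff q).continuousOn.mono (closedBall_subset_ball hr1)).norm
  choose x hxmem hxmax using hmax
  have : Finite (SL(2, ℤ) ⧸ Γ) := Subgroup.finite_quotient_of_finiteIndex
  obtain ⟨qs, hqs⟩ := Finite.exists_max (fun q => ‖K q (x q)‖)
  -- the norm of `E` is bounded by the maximal value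
  have hbound : ∀ τ : ℍ, ‖E τ‖ ≤ ‖K qs (x qs)‖ := by
    intro τ
    obtain ⟨g, hg⟩ := ModularGroup.exists_one_half_le_im_smul τ
    set ξ : ℍ := g • τ with hξ
    set q' : SL(2, ℤ) ⧸ Γ := QuotientGroup.mk g with hq'
    obtain ⟨γ, hγ⟩ := QuotientGroup.mk_out_eq_mul Γ g
    have hτ : τ = ((γ : SL(2, ℤ)) • (q'.out⁻¹ • ξ) : ℍ) := by
      rw [hξ, ← mul_smul, ← mul_smul, hq', hγ]
      simp
    rw [hτ, hinv γ γ.2, ← hKeq q' ξ]
    refine le_trans (hxmax q' ?_) (hqs q')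
    rw [mem_closedBall_zero_iff, Function.Periodic.norm_qParam, hr]
    apply Real.exp_le_exp.mpr
    have him : (1 : ℝ) / 2 ≤ (ξ : ℂ).im := hg
    rw [div_le_div_iff_of_pos_right hh]
    nlinarith [Real.pi_pos]
  -- `K qs` attains its maximum over the open unit ball at `x qs`
  have hxs : x qs ∈ ball (0 : ℂ) 1 := closedBall_subset_ball hr1 (hxmem qs)
  have hmaxs : IsMaxOn (norm ∘ K qs) (ball 0 1) (x qs) := by
    intro z hz
    show ‖K qs z‖ ≤ ‖K qs (x qs)‖
    rcases eq_or_ne z 0 with rfl | hz0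
    · exact hxmax qs (mem_closedBall_self hr0)
    · have hzlt : ‖z‖ < 1 := mem_ball_zero_iff.mp hz
      set τ : ℍ := ⟨Function.Periodic.invQParam h z,
        Function.Periodic.im_invQParam_pos_of_norm_lt_one hh hzlt hz0⟩ with hτ
      have hqτ : 𝕢 h τ = z := Function.Periodic.qParam_right_inv hh.ne' hz0
      rw [← hqτ, hKeq qs τ]
      exact hbound _
  have hconst := Complex.eq_const_of_exists_max (hKdiff qs) hxs hmaxs
  refine ⟨K qs (x qs), fun z => ?_⟩
  have hz : z = (qs.out⁻¹ • (qs.out • z) : ℍ) := by rw [← mul_smul]; simp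
  have hq : 𝕢 h (qs.out • z : ℍ) ∈ ball (0 : ℂ) 1 := by
    rw [mem_ball_zero_iff]
    exact Function.Periodic.norm_qParam_lt_one hh (qs.out • z).im_pos
  rw [hz, ← hKeq qs (qs.out • z)]
  exact hconst hq

end Fermat.Agent.Lib.Period
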