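import Fermat.Prelude.Def_ModularCurve_PeriodHomPair
import Fermat.Agent.Lib.Period.InjMaxMod

/-!
# S21, WP I (part 2): injectivity of the period pairing `periodHomPair`

If `(1 ± ι) P(f) = 0` (`P` the period map, `ι` the involution induced by `z ↦ -conj z`), then the
cusp form `f` vanishes.  Proof: `u(z) = F(z) ± F(-conj z)` (`F` the primitive of `f`) is
`Γ₀(N)`-invariant; with `G(z) = conj (F(-conj z))` (holomorphic) the holomorphic functions
`exp (F ± G)` and `exp (-i(F ∓ G))` have `Γ₀(N)`-invariant absolute value, and all their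
`SL(2,ℤ)`-translates are `N`-periodic with a limit at `i∞`; by the maximum modulus principle
(`pmI_const_of_norm_invariant`) they are constant, hence `F' = f = 0`.
-/

namespace Fermat.Agent.Lib.Period

open UpperHalfPlane hiding I
open Complex Filter Topology ModularCurve ModularCurve.Period CongruenceSubgroup
open scoped MatrixGroups Manifold ComplexConjugate

/-! ### The reflection `J : z ↦ -conj z` -/

theorem pmI_J_smul_smul (δ : SL(2, ℤ)) (z : ℍ) : J • (δ • z) = (jConjSL δ) • (J • z) := by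
  apply UpperHalfPlane.ext
  rw [coe_J_smul, coe_specialLinearGroup_apply, coe_specialLinearGroup_apply, coe_J_smul]
  have h00 : (jConjSL δ) 0 0 = δ 0 0 := by
    show jConjMat _ 0 0 = _; simp
  have h01 : (jConjSL δ) 0 1 = - δ 0 1 := by
    show jConjMat _ 0 1 = _; simp
  have h10 : (jConjSL δ) 1 0 = - δ 1 0 := by
    show jConjMat _ 1 0 = _; simp
  have h11 : (jConjSL δ) 1 1 = δ 1 1 := by
    show jConjMat _ 1 1 = _; simp
  rw [h00, h01, h10, h11]
  simp only [algebraMap_int_eq, eq_intCast, Int.cast_neg, ofReal_neg, ofReal_intCast, map_div₀,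
    map_add, map_mul, map_intCast]
  rw [← neg_div]
  congr 1 <;> ring

theorem pmI_im_J_smul (z : ℍ) : (J • z).im = z.im := by
  have h : ((J • z : ℍ) : ℂ).im = (-(conj (z : ℂ))).im := by rw [coe_J_smul]
  simpa using h

theorem pmI_J_vadd (x : ℝ) (z : ℍ) : J • (x +ᵥ z) = (-x) +ᵥ (J • z) := by
  apply UpperHalfPlane.ext
  rw [coe_J_smul, coe_vadd, coe_vadd, coe_J_smul]
  simp only [map_add, conj_ofReal, ofReal_neg]
  ring

theorem pmI_tendsto_J : Tendsto (fun z : ℍ => J • z) atImInfty atImInfty := by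
  rw [atImInfty, tendsto_comap_iff]
  have : (UpperHalfPlane.im ∘ fun z : ℍ => J • z) = UpperHalfPlane.im := by
    funext z; exact pmI_im_J_smul z
  rw [this]
  exact tendsto_comap

theorem pmI_tendsto_vadd (x : ℝ) : Tendsto (fun z : ℍ => x +ᵥ z) atImInfty atImInfty := by
  rw [atImInfty, tendsto_comap_iff]
  have : (UpperHalfPlane.im ∘ fun z : ℍ => x +ᵥ z) = UpperHalfPlane.im := by
    funext z; exact vadd_im x z
  rw [this]
  exact tendsto_comap

/-! ### Periodicity of the translates of an equivariant primitive -/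

theorem pmI_conj_T_zpow_mem (N : ℕ) (δ : SL(2, ℤ)) (m : ℤ) :
    δ * ModularGroup.T ^ ((N : ℤ) * m) * δ⁻¹ ∈ Gamma0 N := by
  have h1 : ModularGroup.T ^ ((N : ℤ) * m) ∈ CongruenceSubgroup.Gamma N := by
    have := ModularGroup_T_pow_mem_Gamma (N : ℤ) ((N : ℤ) * m) (dvd_mul_right _ _)
    simpa using this
  have h2 := (Gamma_normal N).conj_mem _ h1 δ
  exact Gamma0_mem.mpr (Gamma_mem.mp h2).2.2.1

variable {N : ℕ} {f : CuspForm (Gamma0 N) 2} {F : ℍ → ℂ}

theorem pmI_primitive_periodic (hF : HasEquivariantPrimitive N f F) (δ : SL(2, ℤ)) (m : ℤ)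
    (w : ℍ) : F (δ • ((((N : ℤ) * m : ℤ) : ℝ) +ᵥ w)) = F (δ • w) := by
  obtain ⟨c, hc⟩ := hF.2.2.1 ⟨_, pmI_conj_T_zpow_mem N δ m⟩
  have hc' : ∀ w : ℍ, F (δ • ((((N : ℤ) * m : ℤ) : ℝ) +ᵥ w)) - F (δ • w) = c := by
    intro w
    rw [← hc (δ • w), ← modular_T_zpow_smul]
    congr 2
    show _ = (δ * ModularGroup.T ^ ((N : ℤ) * m) * δ⁻¹) • (δ • w)
    rw [← mul_smul, ← mul_smul]
    simp [mul_assoc]
  obtain ⟨L, hL⟩ := hF.2.2.2 δ
  have h1 : Tendsto (fun w : ℍ => F (δ • ((((N : ℤ) * m : ℤ) : ℝ) +ᵥ w)) - F (δ • w)) atImInfty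
      (𝓝 (L - L)) := (hL.comp (pmI_tendsto_vadd _)).sub hL
  have h2 : Tendsto (fun w : ℍ => F (δ • ((((N : ℤ) * m : ℤ) : ℝ) +ᵥ w)) - F (δ • w)) atImInfty
      (𝓝 c) := by
    simp only [hc']
    exact tendsto_const_nhds
  have hc0 : c = 0 := by
    have := tendsto_nhds_unique h2 h1
    simpa using this
  have := hc' w
  rw [hc0] at this
  exact sub_eq_zero.mp this

/-! ### The holomorphic function `G(z) = conj (F (-conj z))` -/

/-- `G(z) = conj (F(-conj z))`. -/
noncomputable def pmI_G (F : ℍ → ℂ) : ℍ → ℂ := fun z => conj (F (J • z))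

theorem pmI_G_smul (F : ℍ → ℂ) (δ : SL(2, ℤ)) (w : ℍ) :
    pmI_G F (δ • w) = conj (F ((jConjSL δ) • (J • w))) := by
  unfold pmI_G; rw [pmI_J_smul_smul]

theorem pmI_G_periodic (hF : HasEquivariantPrimitive N f F) (δ : SL(2, ℤ)) (m : ℤ) (w : ℍ) :
    pmI_G F (δ • ((((N : ℤ) * m : ℤ) : ℝ) +ᵥ w)) = pmI_G F (δ • w) := by
  rw [pmI_G_smul, pmI_G_smul, pmI_J_vadd]
  have := pmI_primitive_periodic hF (jConjSL δ) (-m) (J • w)
  have e : (((N : ℤ) * -m : ℤ) : ℝ) = -(((N : ℤ) * m : ℤ) : ℝ) := by push_cast; ring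
  rw [e] at this
  rw [this]

theorem pmI_G_tendsto (hF : HasEquivariantPrimitive N f F) (δ : SL(2, ℤ)) :
    ∃ L, Tendsto (fun w : ℍ => pmI_G F (δ • w)) atImInfty (𝓝 L) := by
  obtain ⟨L, hL⟩ := hF.2.2.2 (jConjSL δ)
  refine ⟨conj L, ?_⟩
  have h1 := hL.comp pmI_tendsto_J
  have h2 := (Complex.continuous_conj.tendsto L).comp h1
  refine h2.congr fun w => ?_
  exact (pmI_G_smul F δ w).symm

theorem pmI_G_differentiableAt (hF : HasEquivariantPrimitive N f F) (τ : ℍ) :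
    DifferentiableAt ℂ (pmI_G F ∘ ofComplex) (τ : ℂ) := by
  have hFd : DifferentiableAt ℂ (F ∘ ofComplex) ((J • τ : ℍ) : ℂ) :=
    (hF.1 (J • τ)).differentiableAt
  rw [coe_J_smul] at hFd
  have h1 : DifferentiableAt ℂ ((F ∘ ofComplex) ∘ (fun w : ℂ => -w)) (conj (τ : ℂ)) := by
    apply DifferentiableAt.comp
    · exact hFd
    · exact differentiable_neg.differentiableAt
  have h2 := h1.conj_conj
  rw [Complex.conj_conj] at h2
  refine h2.congr_of_eventuallyEq ?_
  have hopen : ∀ᶠ w in 𝓝 (τ : ℂ), 0 < w.im :=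
    (Complex.continuous_im.isOpen_preimage _ isOpen_Ioi).mem_nhds τ.im_pos
  filter_upwards [hopen] with w hw
  simp only [Function.comp_apply, pmI_G]
  rw [J_smul, ofComplex_apply_of_im_pos hw]

theorem pmI_F_differentiableAt (hF : HasEquivariantPrimitive N f F) (τ : ℍ) :
    DifferentiableAt ℂ (F ∘ ofComplex) (τ : ℂ) := (hF.1 τ).differentiableAt

/-! ### The functions `Φ = a F + b G` and `exp Φ` -/

/-- `Φ = a F + b G`. -/
noncomputable def pmI_Phi (F : ℍ → ℂ) (a b : ℂ) : ℍ → ℂ := fun z => a * F z + b * pmI_G F z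

theorem pmI_Phi_differentiableAt (hF : HasEquivariantPrimitive N f F) (a b : ℂ) (τ : ℍ) :
    DifferentiableAt ℂ (pmI_Phi F a b ∘ ofComplex) (τ : ℂ) :=
  ((pmI_F_differentiableAt hF τ).const_mul a).add ((pmI_G_differentiableAt hF τ).const_mul b)

theorem pmI_mdifferentiable_exp_Phi (hF : HasEquivariantPrimitive N f F) (a b : ℂ) :
    MDiff (fun z => cexp (pmI_Phi F a b z)) := by
  rw [UpperHalfPlane.mdifferentiable_iff]
  intro w hw
  have := (pmI_Phi_differentiableAt hF a b ⟨w, hw⟩).cexp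
  exact this.differentiableWithinAt

theorem pmI_Phi_periodic (hF : HasEquivariantPrimitive N f F) (a b : ℂ) (δ : SL(2, ℤ)) (w : ℍ) :
    pmI_Phi F a b (δ • ((N : ℝ) +ᵥ w)) = pmI_Phi F a b (δ • w) := by
  have h1 := pmI_primitive_periodic hF δ 1 w
  have h2 := pmI_G_periodic hF δ 1 w
  have e : (((N : ℤ) * 1 : ℤ) : ℝ) = (N : ℝ) := by push_cast; ring
  rw [e] at h1 h2
  unfold pmI_Phi
  rw [h1, h2]

theorem pmI_Phi_tendsto (hF : HasEquivariantPrimitive N f F) (a b : ℂ) (δ : SL(2, ℤ)) :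
    ∃ L, Tendsto (fun w : ℍ => pmI_Phi F a b (δ • w)) atImInfty (𝓝 L) := by
  obtain ⟨L1, h1⟩ := hF.2.2.2 δ
  obtain ⟨L2, h2⟩ := pmI_G_tendsto hF δ
  exact ⟨a * L1 + b * L2, (h1.const_mul a).add (h2.const_mul b)⟩

theorem pmI_exp_Phi_const [NeZero N] (hF : HasEquivariantPrimitive N f F) (a b : ℂ)
    (hre : ∀ γ ∈ Gamma0 N, ∀ z : ℍ, (pmI_Phi F a b (γ • z)).re = (pmI_Phi F a b z).re) :
    ∃ c : ℂ, ∀ z : ℍ, cexp (pmI_Phi F a b z) = c := by
  refine pmI_const_of_norm_invariant (Γ := Gamma0 N) (h := (N : ℝ))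
    (Nat.cast_pos.mpr (NeZero.pos N)) (fun z => cexp (pmI_Phi F a b z))
    (pmI_mdifferentiable_exp_Phi hF a b) ?_ ?_ ?_
  · intro γ hγ z
    rw [Complex.norm_exp, Complex.norm_exp, hre γ hγ z]
  · intro δ w
    by_cases hw : 0 < w.im
    · have hw' : 0 < (w + (N : ℝ)).im := by simpa using hw
      simp only [Function.comp_apply]
      have e : ofComplex (w + (N : ℝ)) = (N : ℝ) +ᵥ ofComplex w := by
        apply UpperHalfPlane.ext
        rw [coe_vadd, ofComplex_apply_of_im_pos hw', ofComplex_apply_of_im_pos hw]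
        simp [add_comm]
      rw [e, pmI_Phi_periodic hF a b δ]
    · have hw' : (w + (N : ℝ)).im ≤ 0 := by simpa using not_lt.mp hw
      simp only [Function.comp_apply]
      rw [ofComplex_apply_of_im_nonpos hw', ofComplex_apply_of_im_nonpos (not_lt.mp hw)]
  · intro δ
    obtain ⟨L, hL⟩ := pmI_Phi_tendsto hF a b δ
    have : Tendsto (fun z : ℍ => cexp (pmI_Phi F a b (δ • z))) atImInfty (𝓝 (cexp L)) :=
      (Complex.continuous_exp.tendsto L).comp hL
    exact this.isBigO_one ℝ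

theorem pmI_deriv_eq_zero_of_exp_const (hF : HasEquivariantPrimitive N f F) (a b : ℂ) {c : ℂ}
    (hc : ∀ z : ℍ, cexp (pmI_Phi F a b z) = c) (τ : ℍ) :
    a * f τ + b * deriv (pmI_G F ∘ ofComplex) (τ : ℂ) = 0 := by
  have hG := (pmI_G_differentiableAt hF τ).hasDerivAt
  have hPhi : HasDerivAt (pmI_Phi F a b ∘ ofComplex)
      (a * f τ + b * deriv (pmI_G F ∘ ofComplex) (τ : ℂ)) (τ : ℂ) :=
    ((hF.1 τ).const_mul a).add (hG.const_mul b)
  have hexp := hPhi.cexp
  have hconst : (fun w : ℂ => cexp ((pmI_Phi F a b ∘ ofComplex) w)) = fun _ => c := by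
    funext w
    exact hc _
  rw [hconst] at hexp
  have := hexp.unique (hasDerivAt_const (τ : ℂ) c)
  exact (mul_eq_zero.mp this).resolve_left (Complex.exp_ne_zero _)

/-- **Key step of injectivity**: if the periods of `f` satisfy `P(γ) + ε P(jγ) = 0` for all
`γ ∈ Γ₀(N)` (`ε` real), then `f = 0`. -/
theorem pmI_eq_zero_of_period [NeZero N] (hF : HasEquivariantPrimitive N f F) (ε : ℝ)
    (h : ∀ γ : Gamma0 N, hF.2.2.1.period γ + ε * hF.2.2.1.period (jConjGamma0 N γ) = 0) :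
    f = 0 := by
  have hu : ∀ γ ∈ Gamma0 N, ∀ z : ℍ,
      F (γ • z) + ε * F (J • (γ • z)) = F z + ε * F (J • z) := by
    intro γ hγ z
    have h1 := hF.2.2.1.sub_eq_period ⟨γ, hγ⟩ z
    have h2 := hF.2.2.1.sub_eq_period (jConjGamma0 N ⟨γ, hγ⟩) (J • z)
    have h3 := h ⟨γ, hγ⟩
    rw [pmI_J_smul_smul]
    simp only [jConjGamma0_coe] at h2
    linear_combination h1 + (ε : ℂ) * h2 + h3
  have key1 : ∀ z : ℍ, (pmI_Phi F 1 ε z).re = (F z + ε * F (J • z)).re := by
    intro z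
    simp [pmI_Phi, pmI_G]
  have key2 : ∀ z : ℍ, (pmI_Phi F (-Complex.I) (Complex.I * ε) z).re
      = (F z + ε * F (J • z)).im := by
    intro z
    simp [pmI_Phi, pmI_G, Complex.mul_re, Complex.mul_im]
  obtain ⟨c1, hc1⟩ := pmI_exp_Phi_const hF 1 ε (fun γ hγ z => by
    rw [key1, key1, hu γ hγ z])
  obtain ⟨c2, hc2⟩ := pmI_exp_Phi_const hF (-Complex.I) (Complex.I * ε) (fun γ hγ z => by
    rw [key2, key2, hu γ hγ z])
  ext τ
  have d1 := pmI_deriv_eq_zero_of_exp_const hF 1 ε hc1 τ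
  have d2 := pmI_deriv_eq_zero_of_exp_const hF (-Complex.I) (Complex.I * ε) hc2 τ
  show f τ = 0
  linear_combination (1 / 2 : ℂ) * d1 + (Complex.I / 2) * d2 +
    ((f τ - ε * deriv (pmI_G F ∘ ofComplex) (τ : ℂ)) / 2) * Complex.I_mul_I

/-- **Injectivity of the period pairing** (S21, first half), assuming the existence of
equivariant primitives and the linearity of the period map (WP P). -/
theorem pmI_periodHomPair_injective [NeZero N] (hlin : ExistsPeriodMapLinear N)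
    (hprim : ∀ f : CuspForm (Gamma0 N) 2, ∃ F : ℍ → ℂ, HasEquivariantPrimitive N f F) :
    Function.Injective (periodHomPair N) := by
  obtain ⟨pml, hpml, hpair⟩ := periodHomPair_def N hlin
  rw [← LinearMap.ker_eq_bot, LinearMap.ker_eq_bot']
  rintro ⟨f, g⟩ hfg
  rw [hpair] at hfg
  simp only [LinearMap.coprod_apply, LinearMap.comp_apply, LinearMap.add_apply,
    LinearMap.sub_apply, LinearMap.id_apply, hpml] at hfg
  obtain ⟨Ff, hFf⟩ := hprim f
  obtain ⟨F0, h0, hP0⟩ := periodMap_def N f hFf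
  obtain ⟨Fg, hFg⟩ := hprim g
  obtain ⟨G0, g0, hQ0⟩ := periodMap_def N g hFg
  have hpt : ∀ γ : Gamma0 N,
      (h0.2.2.1.period γ + h0.2.2.1.period (jConjGamma0 N γ)) +
        (g0.2.2.1.period γ - g0.2.2.1.period (jConjGamma0 N γ)) = 0 := by
    intro γ
    have := DFunLike.congr_fun hfg (Additive.ofMul γ)
    rw [hP0, hQ0] at this
    simpa using this
  have hf0 : f = 0 := pmI_eq_zero_of_period h0 1 (fun γ => by
    have h1 := hpt γ
    have h2 := hpt (jConjGamma0 N γ)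
    rw [jConjGamma0_jConjGamma0] at h2
    push_cast
    linear_combination (1 / 2 : ℂ) * h1 + (1 / 2 : ℂ) * h2)
  have hg0 : g = 0 := pmI_eq_zero_of_period g0 (-1) (fun γ => by
    have h1 := hpt γ
    have h2 := hpt (jConjGamma0 N γ)
    rw [jConjGamma0_jConjGamma0] at h2
    push_cast
    linear_combination (1 / 2 : ℂ) * h1 - (1 / 2 : ℂ) * h2)
  rw [hf0, hg0]
  rfl

end Fermat.Agent.Lib.Period
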