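import Mathlib

/-!
# An upper bound for spaces of "parabolic" homomorphisms (abstract part, S21 WP D)

Let `Γ` be a subgroup of finite index of a group `G` generated by two elements `s, t`, let
`X = G ⧸ Γ` and `V = X → ℂ` with the permutation operators `P g v = v ∘ (g • ·)`.

* `pmD_coc`: the explicit Shapiro cocycle `c_ψ(g)(x) = ψ(r(g x)⁻¹ g r(x))` of a homomorphism
  `ψ : Γ → ℂ`; it satisfies `c(gh) = P h (c g) + c h` and recovers `ψ` at the base coset.
* `pmD_finrank_ker_add_card_orbits_le`: `dim ker (N_t ∘ (P_s - 1)) + #(t-orbits) ≤ |X| + 1`,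
  where `N_t = ∑_{j<n} P(tʲ)` and `tⁿ` acts trivially.
* `pmD_abstract_bound`: for a space `H` of homomorphisms `ψ` with `c_ψ(s²) = 0`, `c_ψ((st)³) = 0`
  and `N_t c_ψ(t) = 0`:
  `dim H + dim V^s + dim V^{st} + #(t-orbits) ≤ |X| + 2`.
-/

set_option autoImplicit false

namespace Fermat.Agent.Lib.Period

open Module

section Shapiro

variable {G : Type*} [Group G] (Γ : Subgroup G)

/-- The permutation operator `v ↦ v ∘ (g • ·)` on functions on a `G`-set. -/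
def pmD_P {X : Type*} [MulAction G X] (g : G) : (X → ℂ) →ₗ[ℂ] (X → ℂ) :=
  LinearMap.funLeft ℂ ℂ (fun x => g • x)

@[simp] theorem pmD_P_apply {X : Type*} [MulAction G X] (g : G) (v : X → ℂ) (x : X) :
    pmD_P g v x = v (g • x) := rfl

theorem pmD_P_mul {X : Type*} [MulAction G X] (g h : G) :
    (pmD_P (g * h) : (X → ℂ) →ₗ[ℂ] (X → ℂ)) = pmD_P h ∘ₗ pmD_P g := by
  refine LinearMap.ext fun v => funext fun x => ?_
  simp [mul_smul]

theorem pmD_P_one {X : Type*} [MulAction G X] :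
    (pmD_P (1 : G) : (X → ℂ) →ₗ[ℂ] (X → ℂ)) = LinearMap.id := by
  refine LinearMap.ext fun v => funext fun x => ?_
  simp

/-- The Schreier element `κ(g, x) = r(g x)⁻¹ g r(x) ∈ Γ`. -/
noncomputable def pmD_kappa (g : G) (x : G ⧸ Γ) : Γ :=
  ⟨(g • x).out⁻¹ * g * x.out, by
    have h : ((g • x).out : G ⧸ Γ) = ((g * x.out : G) : G ⧸ Γ) := by
      rw [QuotientGroup.out_eq']
      conv_lhs => rw [← QuotientGroup.out_eq' x]
      rfl
    rw [mul_assoc]
    exact QuotientGroup.eq.mp h⟩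

theorem pmD_kappa_mul (g h : G) (x : G ⧸ Γ) :
    pmD_kappa Γ (g * h) x = pmD_kappa Γ g (h • x) * pmD_kappa Γ h x := by
  apply Subtype.ext
  simp only [pmD_kappa, Subgroup.coe_mul, mul_smul]
  group

/-- The explicit Shapiro cocycle attached to a homomorphism `ψ : Γ → ℂ`, as a linear map in
`ψ`. -/
noncomputable def pmD_coc (g : G) : (Additive Γ →+ ℂ) →ₗ[ℂ] ((G ⧸ Γ) → ℂ) where
  toFun ψ := fun x => ψ (Additive.ofMul (pmD_kappa Γ g x))
  map_add' _ _ := rfl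
  map_smul' _ _ := rfl

theorem pmD_coc_apply (g : G) (ψ : Additive Γ →+ ℂ) (x : G ⧸ Γ) :
    pmD_coc Γ g ψ x = ψ (Additive.ofMul (pmD_kappa Γ g x)) := rfl

/-- The cocycle identity `c(gh) = c(g)·h + c(h)`. -/
theorem pmD_coc_mul (g h : G) (ψ : Additive Γ →+ ℂ) :
    pmD_coc Γ (g * h) ψ = pmD_P h (pmD_coc Γ g ψ) + pmD_coc Γ h ψ := by
  funext x
  rw [Pi.add_apply, pmD_P_apply, pmD_coc_apply, pmD_coc_apply, pmD_coc_apply, pmD_kappa_mul,
    ofMul_mul, map_add]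

/-- On `Γ`, at the base coset, the cocycle recovers `ψ`. -/
theorem pmD_coc_base (γ : Γ) (ψ : Additive Γ →+ ℂ) :
    pmD_coc Γ (γ : G) ψ ((1 : G) : G ⧸ Γ) = ψ (Additive.ofMul γ) := by
  have hfix : (γ : G) • ((1 : G) : G ⧸ Γ) = ((1 : G) : G ⧸ Γ) := by
    rw [MulAction.Quotient.smul_coe, smul_eq_mul, mul_one, QuotientGroup.eq, mul_one]
    exact Γ.inv_mem γ.2
  have hr : (((1 : G) : G ⧸ Γ).out : G) ∈ Γ := by
    have := QuotientGroup.out_eq' (((1 : G) : G ⧸ Γ))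
    rw [QuotientGroup.eq] at this
    simpa using Γ.inv_mem this
  set r : Γ := ⟨_, hr⟩ with hrdef
  have hk : pmD_kappa Γ (γ : G) ((1 : G) : G ⧸ Γ) = r⁻¹ * γ * r := by
    apply Subtype.ext
    simp only [pmD_kappa, hfix, Subgroup.coe_mul, Subgroup.coe_inv, hrdef]
  rw [pmD_coc_apply, hk, ofMul_mul, ofMul_mul, map_add, map_add, ofMul_inv, map_neg]
  ring

end Shapiro

section Cocycle

variable {G : Type*} [Group G] {X : Type*} [MulAction G X]

/-- Right cocycles `G → (X → ℂ)`: `c(gh) = c(g)·h + c(h)`. -/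
def pmD_IsCoc (c : G → X → ℂ) : Prop := ∀ g h, c (g * h) = pmD_P h (c g) + c h

theorem pmD_IsCoc.one {c : G → X → ℂ} (hc : pmD_IsCoc c) : c 1 = 0 := by
  have h := hc 1 1
  rw [mul_one, pmD_P_one, LinearMap.id_apply] at h
  exact left_eq_add.mp h

theorem pmD_IsCoc.inv {c : G → X → ℂ} (hc : pmD_IsCoc c) (g : G) :
    c g⁻¹ = -pmD_P g⁻¹ (c g) := by
  have h := hc g g⁻¹
  rw [mul_inv_cancel, hc.one] at h
  exact eq_neg_of_add_eq_zero_right h.symm

theorem pmD_IsCoc.sub {c c' : G → X → ℂ} (hc : pmD_IsCoc c) (hc' : pmD_IsCoc c') :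
    pmD_IsCoc (fun g => c g - c' g) := by
  intro g h
  simp only [hc g h, hc' g h, map_sub]
  abel

/-- Coboundaries are cocycles. -/
theorem pmD_isCoc_cob (v : X → ℂ) : pmD_IsCoc (fun g : G => pmD_P g v - v) := by
  intro g h
  simp only [pmD_P_mul, LinearMap.comp_apply, map_sub]
  abel

/-- A cocycle vanishing on a generating set vanishes identically. -/
theorem pmD_IsCoc.eq_zero_of_closure {c : G → X → ℂ} (hc : pmD_IsCoc c) {s : Set G}
    (hs : Subgroup.closure s = ⊤) (h0 : ∀ g ∈ s, c g = 0) (g : G) : c g = 0 := by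
  have hg : g ∈ Subgroup.closure s := by rw [hs]; trivial
  induction hg using Subgroup.closure_induction with
  | mem x hx => exact h0 x hx
  | one => exact hc.one
  | mul x y _ _ hx hy => rw [hc x y, hx, hy, map_zero, add_zero]
  | inv x _ hx => rw [hc.inv, hx, map_zero, neg_zero]

/-- `c(tⁿ) = ∑_{j<n} c(t)·tʲ`. -/
theorem pmD_IsCoc.pow {c : G → X → ℂ} (hc : pmD_IsCoc c) (t : G) (n : ℕ) :
    c (t ^ n) = ∑ j ∈ Finset.range n, pmD_P (t ^ j) (c t) := by
  induction n with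
  | zero => rw [pow_zero, hc.one, Finset.range_zero, Finset.sum_empty]
  | succ n ih =>
    rw [pow_succ', hc t (t ^ n), Finset.sum_range_succ, ih, add_comm]

end Cocycle

section LinAlg

variable {G : Type*} [Group G] {X : Type*} [MulAction G X]

/-- The norm operator `∑_{j<n} P(tʲ)` of the cyclic group generated by `t`. -/
def pmD_norm (t : G) (n : ℕ) : (X → ℂ) →ₗ[ℂ] (X → ℂ) := ∑ j ∈ Finset.range n, pmD_P (t ^ j)

theorem pmD_norm_apply (t : G) (n : ℕ) (v : X → ℂ) :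
    pmD_norm t n v = ∑ j ∈ Finset.range n, pmD_P (t ^ j) v := by
  rw [pmD_norm, LinearMap.sum_apply]

theorem pmD_P_eq_id_of_smul {g : G} (hg : ∀ x : X, g • x = x) :
    (pmD_P g : (X → ℂ) →ₗ[ℂ] (X → ℂ)) = LinearMap.id := by
  refine LinearMap.ext fun v => funext fun x => ?_
  rw [pmD_P_apply, hg, LinearMap.id_apply]

/-- `N_t ∘ P_t = N_t` when `tⁿ` acts trivially. -/
theorem pmD_norm_P (t : G) (n : ℕ) (ht : ∀ x : X, t ^ n • x = x) (v : X → ℂ) :
    pmD_norm t n (pmD_P t v) = pmD_norm t n v := by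
  rw [pmD_norm_apply, pmD_norm_apply]
  have h1 : ∀ j, pmD_P (t ^ j) (pmD_P t v) = pmD_P (t ^ (j + 1)) v := by
    intro j
    rw [pow_succ', pmD_P_mul, LinearMap.comp_apply]
  simp only [h1]
  have h2 := Finset.sum_range_succ' (fun j => pmD_P (t ^ j) v) n
  have h3 := Finset.sum_range_succ (fun j => pmD_P (t ^ j) v) n
  rw [h3] at h2
  simp only [pow_zero, pmD_P_one, LinearMap.id_apply, pmD_P_eq_id_of_smul ht] at h2
  exact (add_right_cancel h2).symm

theorem pmD_norm_P_sub (t : G) (n : ℕ) (ht : ∀ x : X, t ^ n • x = x) (v : X → ℂ) :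
    pmD_norm t n (pmD_P t v - v) = 0 := by
  rw [map_sub, pmD_norm_P t n ht, sub_self]

/-- If a submodule contains `P_g u - u` for `g` in a generating set, it contains them all. -/
theorem pmD_P_sub_mem_of_closure {s : Set G} (hs : Subgroup.closure s = ⊤)
    (E : Submodule ℂ (X → ℂ)) (hE : ∀ g ∈ s, ∀ u : X → ℂ, pmD_P g u - u ∈ E) (g : G)
    (u : X → ℂ) : pmD_P g u - u ∈ E := by
  have hg : g ∈ Subgroup.closure s := by rw [hs]; trivial
  induction hg using Subgroup.closure_induction generalizing u with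
  | mem x hx => exact hE x hx u
  | one => rw [pmD_P_one, LinearMap.id_apply, sub_self]; exact E.zero_mem
  | mul x y _ _ hx hy =>
    rw [pmD_P_mul, LinearMap.comp_apply]
    have := E.add_mem (hy (pmD_P x u)) (hx u)
    rwa [sub_add_sub_cancel] at this
  | inv x _ hx =>
    have h1 : pmD_P x (pmD_P x⁻¹ u) = u := by
      rw [← LinearMap.comp_apply, ← pmD_P_mul, inv_mul_cancel, pmD_P_one, LinearMap.id_apply]
    have := E.neg_mem (hx (pmD_P x⁻¹ u))
    rwa [h1, neg_sub] at this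

theorem pmD_P_single [DecidableEq X] (g : G) (y : X) :
    pmD_P g (Pi.single y (1 : ℂ)) = Pi.single (g⁻¹ • y) (1 : ℂ) := by
  funext x
  rw [pmD_P_apply, Pi.single_apply, Pi.single_apply]
  refine if_congr ?_ rfl rfl
  rw [eq_inv_smul_iff]

/-- If `G` acts transitively, every function is a multiple of `δ_{x₀}` modulo the span of the
`P_g u - u`. -/
theorem pmD_mem_sup_span [DecidableEq X] [Fintype X] [MulAction.IsPretransitive G X]
    (E : Submodule ℂ (X → ℂ)) (hE : ∀ (g : G) (u : X → ℂ), pmD_P g u - u ∈ E) (x₀ : X)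
    (v : X → ℂ) : v ∈ E ⊔ Submodule.span ℂ {(Pi.single x₀ (1 : ℂ) : X → ℂ)} := by
  have hsingle : ∀ x : X, (Pi.single x (1 : ℂ) : X → ℂ) ∈
      E ⊔ Submodule.span ℂ {(Pi.single x₀ (1 : ℂ) : X → ℂ)} := by
    intro x
    obtain ⟨g, rfl⟩ := MulAction.exists_smul_eq G x₀ x
    have h1 := hE g⁻¹ (Pi.single x₀ (1 : ℂ))
    rw [pmD_P_single, inv_inv] at h1
    have h2 : (Pi.single (g • x₀) (1 : ℂ) : X → ℂ) =
        (Pi.single (g • x₀) (1 : ℂ) - Pi.single x₀ (1 : ℂ)) + Pi.single x₀ (1 : ℂ) := by abel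
    rw [h2]
    exact Submodule.add_mem_sup h1 (Submodule.mem_span_singleton_self _)
  have hv : v = ∑ x, v x • (Pi.single x (1 : ℂ) : X → ℂ) := by
    funext y
    simp [Finset.sum_apply, Pi.single_apply]
  rw [hv]
  exact Submodule.sum_mem _ fun x _ => Submodule.smul_mem _ _ (hsingle x)

/-- The number of orbits of `t` is at most the rank of the norm operator. -/
theorem pmD_card_orbits_le_finrank_range_norm [Finite X] (t : G) (n : ℕ) (hn : n ≠ 0) :
    Nat.card (MulAction.orbitRel.Quotient (Subgroup.zpowers t) X) ≤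
      finrank ℂ (LinearMap.range (pmD_norm t n : (X → ℂ) →ₗ[ℂ] (X → ℂ))) := by
  classical
  set Ω := MulAction.orbitRel.Quotient (Subgroup.zpowers t) X with hΩ
  have : Fintype Ω := Fintype.ofFinite _
  set π : X → Ω := Quotient.mk'' with hπ
  have hπsurj : Function.Surjective π := Quotient.mk''_surjective
  have hπt : ∀ (j : ℕ) (x : X), π (t ^ j • x) = π x := by
    intro j x
    refine Quotient.sound' ?_
    exact ⟨⟨t ^ j, Subgroup.pow_mem _ (Subgroup.mem_zpowers t) j⟩, rfl⟩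
  let ι : (Ω → ℂ) →ₗ[ℂ] (X → ℂ) := LinearMap.funLeft ℂ ℂ π
  have hιinj : Function.Injective ι := LinearMap.funLeft_injective_of_surjective ℂ ℂ π hπsurj
  have hle : LinearMap.range ι ≤ LinearMap.range (pmD_norm t n : (X → ℂ) →ₗ[ℂ] (X → ℂ)) := by
    rintro _ ⟨l, rfl⟩
    refine ⟨(n : ℂ)⁻¹ • ι l, ?_⟩
    rw [map_smul, pmD_norm_apply]
    have h1 : ∀ j ∈ Finset.range n, pmD_P (t ^ j) (ι l) = ι l := by
      intro j _
      funext x
      rw [pmD_P_apply]
      show l (π (t ^ j • x)) = l (π x)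
      rw [hπt]
    rw [Finset.sum_congr rfl h1, Finset.sum_const, Finset.card_range, ← Nat.cast_smul_eq_nsmul ℂ,
      smul_smul, inv_mul_cancel₀ (Nat.cast_ne_zero.mpr hn), one_smul]
  calc Nat.card Ω = finrank ℂ (Ω → ℂ) := by
        rw [Module.finrank_fintype_fun_eq_card, Nat.card_eq_fintype_card]
    _ = finrank ℂ (LinearMap.range ι) := (LinearMap.finrank_range_of_inj hιinj).symm
    _ ≤ _ := Submodule.finrank_mono hle

/-- **Main rank count**: if `s, t` generate `G`, `G` acts transitively on the finite set `X` and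
`tⁿ` acts trivially, then `dim ker (N_t ∘ (P_s - 1)) + #(t-orbits) ≤ |X| + 1`. -/
theorem pmD_finrank_ker_add_card_orbits_le [Fintype X] [MulAction.IsPretransitive G X] (s t : G)
    (hst : Subgroup.closure {s, t} = ⊤) (n : ℕ) (hn : n ≠ 0) (ht : ∀ x : X, t ^ n • x = x)
    (x₀ : X) :
    finrank ℂ (LinearMap.ker (pmD_norm t n ∘ₗ (pmD_P s - LinearMap.id) :
        (X → ℂ) →ₗ[ℂ] (X → ℂ))) +
      Nat.card (MulAction.orbitRel.Quotient (Subgroup.zpowers t) X) ≤ Fintype.card X + 1 := by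
  classical
  set D : (X → ℂ) →ₗ[ℂ] (X → ℂ) := pmD_norm t n ∘ₗ (pmD_P s - LinearMap.id) with hD
  set E : Submodule ℂ (X → ℂ) :=
    LinearMap.range (pmD_P s - LinearMap.id : (X → ℂ) →ₗ[ℂ] (X → ℂ)) ⊔
      LinearMap.range (pmD_P t - LinearMap.id : (X → ℂ) →ₗ[ℂ] (X → ℂ)) with hEdef
  have hE : ∀ (g : G) (u : X → ℂ), pmD_P g u - u ∈ E := by
    refine pmD_P_sub_mem_of_closure hst E ?_
    intro g hg u
    rcases hg with rfl | hg
    · exact Submodule.mem_sup_left ⟨u, rfl⟩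
    · rw [Set.mem_singleton_iff] at hg
      subst hg
      exact Submodule.mem_sup_right ⟨u, rfl⟩
  have htop := pmD_mem_sup_span E hE x₀
  have hrange : LinearMap.range (pmD_norm t n : (X → ℂ) →ₗ[ℂ] (X → ℂ)) ≤
      LinearMap.range D ⊔ Submodule.span ℂ {pmD_norm t n (Pi.single x₀ (1 : ℂ))} := by
    rintro _ ⟨v, rfl⟩
    obtain ⟨e, he, w, hw, rfl⟩ := Submodule.mem_sup.mp (htop v)
    obtain ⟨e₁, ⟨u₁, rfl⟩, e₂, ⟨u₂, rfl⟩, rfl⟩ := Submodule.mem_sup.mp he
    obtain ⟨k, rfl⟩ := Submodule.mem_span_singleton.mp hw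
    have h2 : pmD_norm t n ((pmD_P t - LinearMap.id : (X → ℂ) →ₗ[ℂ] (X → ℂ)) u₂) = 0 := by
      rw [LinearMap.sub_apply, LinearMap.id_apply]
      exact pmD_norm_P_sub t n ht u₂
    rw [map_add, map_add, h2, add_zero, map_smul]
    exact Submodule.add_mem_sup ⟨u₁, rfl⟩
      (Submodule.smul_mem _ _ (Submodule.mem_span_singleton_self _))
  have h1 := pmD_card_orbits_le_finrank_range_norm (X := X) t n hn
  have h2 := Submodule.finrank_mono hrange
  have h3 := Submodule.finrank_add_le_finrank_add_finrank (LinearMap.range D)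
    (Submodule.span ℂ {pmD_norm t n (Pi.single x₀ (1 : ℂ))})
  have h4 : finrank ℂ (Submodule.span ℂ {pmD_norm t n (Pi.single x₀ (1 : ℂ))}) ≤ 1 := by
    have := finrank_span_le_card (R := ℂ) ({pmD_norm t n (Pi.single x₀ (1 : ℂ))} : Set (X → ℂ))
    simpa using this
  have h5 := LinearMap.finrank_range_add_finrank_ker D
  rw [Module.finrank_fintype_fun_eq_card] at h5
  omega

end LinAlg

section Bound

variable {G : Type*} [Group G] (Γ : Subgroup G)

theorem pmD_isCoc_coc (ψ : Additive Γ →+ ℂ) : pmD_IsCoc (fun g => pmD_coc Γ g ψ) :=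
  fun g h => pmD_coc_mul Γ g h ψ

/-- A homomorphism whose Shapiro cocycle is a coboundary is zero. -/
theorem pmD_eq_zero_of_coc_eq_cob {ψ : Additive Γ →+ ℂ} {y : (G ⧸ Γ) → ℂ}
    (h : ∀ g : G, pmD_coc Γ g ψ = pmD_P g y - y) : ψ = 0 := by
  refine AddMonoidHom.ext fun γ => ?_
  obtain ⟨γ, rfl⟩ : ∃ γ' : Γ, Additive.ofMul γ' = γ := ⟨Additive.toMul γ, rfl⟩
  rw [← pmD_coc_base, h, AddMonoidHom.zero_apply, Pi.sub_apply, pmD_P_apply]
  have hfix : (γ : G) • ((1 : G) : G ⧸ Γ) = ((1 : G) : G ⧸ Γ) := by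
    rw [MulAction.Quotient.smul_coe, smul_eq_mul, mul_one, QuotientGroup.eq, mul_one]
    exact Γ.inv_mem γ.2
  rw [hfix, sub_self]

/-- `Hom(Γ, ℂ)` embeds into `V × V` via the values of the Shapiro cocycle on two generators. -/
theorem pmD_coc_pair_injective (s t : G) (hst : Subgroup.closure {s, t} = ⊤) :
    Function.Injective ((pmD_coc Γ s).prod (pmD_coc Γ t)) := by
  rw [← LinearMap.ker_eq_bot, LinearMap.ker_eq_bot']
  intro ψ hψ
  rw [LinearMap.prod_apply, Prod.ext_iff] at hψ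
  change pmD_coc Γ s ψ = 0 ∧ pmD_coc Γ t ψ = 0 at hψ
  refine pmD_eq_zero_of_coc_eq_cob Γ (y := 0) fun g => ?_
  rw [map_zero, sub_zero]
  refine (pmD_isCoc_coc Γ ψ).eq_zero_of_closure hst ?_ g
  intro g hg
  rcases hg with rfl | hg
  · exact hψ.1
  · rw [Set.mem_singleton_iff] at hg
    subst hg
    exact hψ.2

theorem pmD_finite_hom [Finite (G ⧸ Γ)] (s t : G) (hst : Subgroup.closure {s, t} = ⊤) :
    Module.Finite ℂ (Additive Γ →+ ℂ) :=
  Module.Finite.of_injective _ (pmD_coc_pair_injective Γ s t hst)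

section formulas

variable {V : Type*} [AddCommGroup V] [Module ℂ V]

theorem pmD_alpha_formula (P : V →ₗ[ℂ] V) (a : V) (h : P a + a = 0) :
    P ((-(1 / 2 : ℂ)) • a) - (-(1 / 2 : ℂ)) • a = a := by
  rw [map_smul]
  have h' : P a = -a := eq_neg_of_add_eq_zero_left h
  rw [h']
  module

theorem pmD_beta_formula (P : V →ₗ[ℂ] V) (b : V) (h : P (P b) + P b + b = 0) :
    P ((-(1 / 3 : ℂ)) • ((2 : ℂ) • b + P b)) - (-(1 / 3 : ℂ)) • ((2 : ℂ) • b + P b) = b := by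
  rw [map_smul, map_add, map_smul]
  have h' : P (P b) = -P b - b := by
    rw [sub_eq_add_neg, eq_comm, ← sub_eq_zero, ← neg_eq_zero]
    rw [← h]; abel
  rw [h']
  module

end formulas

variable (s t : G)

/-- `α_ψ = -c_ψ(s)/2`, a solution of `(P_s - 1) α = c_ψ(s)`. -/
noncomputable def pmD_alpha : (Additive Γ →+ ℂ) →ₗ[ℂ] ((G ⧸ Γ) → ℂ) :=
  (-(1 / 2 : ℂ)) • pmD_coc Γ s

/-- `β_ψ = -(2 c_ψ(u) + P_u c_ψ(u))/3`, `u = s t`, a solution of `(P_u - 1) β = c_ψ(u)`. -/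
noncomputable def pmD_beta : (Additive Γ →+ ℂ) →ₗ[ℂ] ((G ⧸ Γ) → ℂ) :=
  (-(1 / 3 : ℂ)) • ((2 : ℂ) • pmD_coc Γ (s * t) + pmD_P (s * t) ∘ₗ pmD_coc Γ (s * t))

theorem pmD_alpha_spec {ψ : Additive Γ →+ ℂ} (h : pmD_coc Γ (s * s) ψ = 0) :
    pmD_P s (pmD_alpha Γ s ψ) - pmD_alpha Γ s ψ = pmD_coc Γ s ψ := by
  rw [pmD_coc_mul] at h
  exact pmD_alpha_formula (pmD_P s) _ h

theorem pmD_beta_spec {ψ : Additive Γ →+ ℂ} (h : pmD_coc Γ (s * t * (s * t) * (s * t)) ψ = 0) :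
    pmD_P (s * t) (pmD_beta Γ s t ψ) - pmD_beta Γ s t ψ = pmD_coc Γ (s * t) ψ := by
  rw [pmD_coc_mul, pmD_coc_mul, map_add] at h
  exact pmD_beta_formula (pmD_P (s * t)) _ h

/-- The class `w_ψ = α_ψ - β_ψ`. -/
noncomputable def pmD_w : (Additive Γ →+ ℂ) →ₗ[ℂ] ((G ⧸ Γ) → ℂ) :=
  pmD_alpha Γ s - pmD_beta Γ s t

theorem pmD_norm_w {n : ℕ} (ht : ∀ x : G ⧸ Γ, t ^ n • x = x) {ψ : Additive Γ →+ ℂ}
    (hzs : pmD_coc Γ (s * s) ψ = 0) (hzu : pmD_coc Γ (s * t * (s * t) * (s * t)) ψ = 0)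
    (hpar : pmD_norm t n (pmD_coc Γ t ψ) = 0) :
    pmD_norm t n (pmD_P s (pmD_w Γ s t ψ) - pmD_w Γ s t ψ) = 0 := by
  have hA := pmD_alpha_spec Γ s hzs
  have hB := pmD_beta_spec Γ s t hzu
  have hcoc := pmD_coc_mul Γ s t ψ
  rw [pmD_P_mul, LinearMap.comp_apply] at hB
  set β := pmD_beta Γ s t ψ with hβ
  set α := pmD_alpha Γ s ψ with hα
  have h1 : pmD_P s (pmD_w Γ s t ψ) - pmD_w Γ s t ψ = pmD_coc Γ s ψ - (pmD_P s β - β) := by
    rw [pmD_w, LinearMap.sub_apply, ← hA, map_sub]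
    abel
  have h2 : pmD_P t (pmD_coc Γ s ψ) = pmD_P t (pmD_P s β) - β - pmD_coc Γ t ψ := by
    rw [hB, hcoc]; abel
  rw [h1, map_sub, ← pmD_norm_P t n ht (pmD_coc Γ s ψ), h2, map_sub, map_sub, map_sub, hpar,
    pmD_norm_P t n ht]
  abel

/-- A function on a `G`-set fixed by a generating set is fixed by every element. -/
theorem pmD_P_eq_self_of_closure {X : Type*} [MulAction G X] {gens : Set G}
    (hs : Subgroup.closure gens = ⊤) {p : X → ℂ} (hp : ∀ g ∈ gens, pmD_P g p = p) (g : G) :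
    pmD_P g p = p := by
  have hg : g ∈ Subgroup.closure gens := by rw [hs]; trivial
  induction hg using Subgroup.closure_induction with
  | mem x hx => exact hp x hx
  | one => rw [pmD_P_one, LinearMap.id_apply]
  | mul x y _ _ hx hy => rw [pmD_P_mul, LinearMap.comp_apply, hx, hy]
  | inv x _ hx =>
    conv_lhs => rw [← hx]
    rw [← LinearMap.comp_apply, ← pmD_P_mul, mul_inv_cancel, pmD_P_one, LinearMap.id_apply]

theorem pmD_ker_aux (hst : Subgroup.closure {s, t} = ⊤) {ψ : Additive Γ →+ ℂ}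
    (hzs : pmD_coc Γ (s * s) ψ = 0) (hzu : pmD_coc Γ (s * t * (s * t) * (s * t)) ψ = 0)
    {p q : (G ⧸ Γ) → ℂ} (hp : pmD_P s p = p) (hq : pmD_P (s * t) q = q)
    (h : pmD_w Γ s t ψ + p + q = 0) :
    ψ = 0 ∧ ∀ x, p x = p ((1 : G) : G ⧸ Γ) := by
  have hA := pmD_alpha_spec Γ s hzs
  have hB := pmD_beta_spec Γ s t hzu
  rw [pmD_w, LinearMap.sub_apply] at h
  set β := pmD_beta Γ s t ψ with hβ
  set α := pmD_alpha Γ s ψ with hα
  have hy : β - q = α + p := by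
    linear_combination (norm := module) -h
  have hcoc : pmD_IsCoc (fun g => pmD_coc Γ g ψ - (pmD_P g (β - q) - (β - q))) :=
    (pmD_isCoc_coc Γ ψ).sub (pmD_isCoc_cob (β - q))
  have h_u : pmD_coc Γ (s * t) ψ - (pmD_P (s * t) (β - q) - (β - q)) = 0 := by
    rw [map_sub, hq, ← hB]; abel
  have h_s : pmD_coc Γ s ψ - (pmD_P s (β - q) - (β - q)) = 0 := by
    rw [hy, map_add, hp, ← hA]; abel
  have h_t : pmD_coc Γ t ψ - (pmD_P t (β - q) - (β - q)) = 0 := by
    have := hcoc s t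
    simp only [h_u, h_s, map_zero, zero_add] at this
    exact this.symm
  have hzero : ∀ g : G, pmD_coc Γ g ψ - (pmD_P g (β - q) - (β - q)) = 0 := by
    refine hcoc.eq_zero_of_closure hst ?_
    intro g hg
    rcases hg with rfl | hg
    · exact h_s
    · rw [Set.mem_singleton_iff] at hg
      subst hg
      exact h_t
  have hψ : ψ = 0 := pmD_eq_zero_of_coc_eq_cob Γ (y := β - q) fun g => sub_eq_zero.mp (hzero g)
  refine ⟨hψ, ?_⟩
  have hα0 : α = 0 := by rw [hα, hψ, map_zero]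
  have hβ0 : β = 0 := by rw [hβ, hψ, map_zero]
  have hqp : q = -p := by
    rw [hα0, hβ0] at hy
    linear_combination (norm := module) -hy
  have hpu : pmD_P (s * t) p = p := by
    have := hq
    rw [hqp, map_neg, neg_inj] at this
    exact this
  have hpt : pmD_P t p = p := by
    rw [pmD_P_mul, LinearMap.comp_apply, hp] at hpu
    exact hpu
  have hall : ∀ g : G, pmD_P g p = p := by
    refine pmD_P_eq_self_of_closure hst ?_
    intro g hg
    rcases hg with rfl | hg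
    · exact hp
    · rw [Set.mem_singleton_iff] at hg
      subst hg
      exact hpt
  intro x
  induction x using QuotientGroup.induction_on with
  | H g =>
    have := congrFun (hall g) ((1 : G) : G ⧸ Γ)
    rw [pmD_P_apply, MulAction.Quotient.smul_coe, smul_eq_mul, mul_one] at this
    exact this

theorem pmD_finrank_ker_le_one {M M' : Type*} [AddCommGroup M] [Module ℂ M] [AddCommGroup M']
    [Module ℂ M'] (Φ : M →ₗ[ℂ] M') (ev : M →ₗ[ℂ] ℂ)
    (h : ∀ a, Φ a = 0 → ev a = 0 → a = 0) : finrank ℂ (LinearMap.ker Φ) ≤ 1 := by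
  have hinj : Function.Injective (ev.domRestrict (LinearMap.ker Φ)) := by
    refine LinearMap.ker_eq_bot.mp (LinearMap.ker_eq_bot'.mpr ?_)
    rintro ⟨a, ha⟩ h0
    exact Subtype.ext (h a (LinearMap.mem_ker.mp ha) h0)
  have := LinearMap.finrank_le_finrank_of_injective hinj
  rwa [Module.finrank_self] at this

/-- **Abstract dimension bound** for "parabolic" homomorphisms. -/
theorem pmD_abstract_bound [Fintype (G ⧸ Γ)] (hst : Subgroup.closure {s, t} = ⊤) {n : ℕ}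
    (hn : n ≠ 0) (ht : ∀ x : G ⧸ Γ, t ^ n • x = x) (H : Submodule ℂ (Additive Γ →+ ℂ))
    (hzs : ∀ ψ ∈ H, pmD_coc Γ (s * s) ψ = 0)
    (hzu : ∀ ψ ∈ H, pmD_coc Γ (s * t * (s * t) * (s * t)) ψ = 0)
    (hpar : ∀ ψ ∈ H, pmD_norm t n (pmD_coc Γ t ψ) = 0) :
    finrank ℂ H +
        finrank ℂ (LinearMap.ker (pmD_P s - LinearMap.id : ((G ⧸ Γ) → ℂ) →ₗ[ℂ] ((G ⧸ Γ) → ℂ))) +
        finrank ℂ (LinearMap.ker
          (pmD_P (s * t) - LinearMap.id : ((G ⧸ Γ) → ℂ) →ₗ[ℂ] ((G ⧸ Γ) → ℂ))) +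
        Nat.card (MulAction.orbitRel.Quotient (Subgroup.zpowers t) (G ⧸ Γ)) ≤
      Fintype.card (G ⧸ Γ) + 2 := by
  classical
  have hfin : Module.Finite ℂ (Additive Γ →+ ℂ) := pmD_finite_hom Γ s t hst
  set VS := LinearMap.ker (pmD_P s - LinearMap.id : ((G ⧸ Γ) → ℂ) →ₗ[ℂ] ((G ⧸ Γ) → ℂ)) with hVS
  set VU := LinearMap.ker
    (pmD_P (s * t) - LinearMap.id : ((G ⧸ Γ) → ℂ) →ₗ[ℂ] ((G ⧸ Γ) → ℂ)) with hVU
  set D : ((G ⧸ Γ) → ℂ) →ₗ[ℂ] ((G ⧸ Γ) → ℂ) := pmD_norm t n ∘ₗ (pmD_P s - LinearMap.id) with hD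
  obtain ⟨Φ, hΦ⟩ : ∃ Φ : (H × (VS × VU)) →ₗ[ℂ] ((G ⧸ Γ) → ℂ), ∀ a : H × (VS × VU),
      Φ a = pmD_w Γ s t (a.1 : Additive Γ →+ ℂ) +
        ((a.2.1 : (G ⧸ Γ) → ℂ) + (a.2.2 : (G ⧸ Γ) → ℂ)) :=
    ⟨(pmD_w Γ s t ∘ₗ H.subtype).coprod (VS.subtype.coprod VU.subtype), fun a => rfl⟩
  have hmemS : ∀ p : VS, pmD_P s (p : (G ⧸ Γ) → ℂ) = p := by
    intro p
    have := LinearMap.mem_ker.mp p.2
    rw [LinearMap.sub_apply, LinearMap.id_apply, sub_eq_zero] at this
    exact this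
  have hmemU : ∀ q : VU, pmD_P (s * t) (q : (G ⧸ Γ) → ℂ) = q := by
    intro q
    have := LinearMap.mem_ker.mp q.2
    rw [LinearMap.sub_apply, LinearMap.id_apply, sub_eq_zero] at this
    exact this
  -- the range of `Φ` lies in `ker D`
  have hrange : LinearMap.range Φ ≤ LinearMap.ker D := by
    rintro _ ⟨a, rfl⟩
    rw [LinearMap.mem_ker, hΦ, hD, LinearMap.comp_apply, LinearMap.sub_apply, LinearMap.id_apply,
      map_add, map_add, add_sub_add_comm, add_sub_add_comm, map_add, map_add,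
      pmD_norm_w Γ s t ht (hzs _ a.1.2) (hzu _ a.1.2) (hpar _ a.1.2), hmemS, sub_self, map_zero,
      zero_add, zero_add]
    have hq := hmemU a.2.2
    rw [pmD_P_mul, LinearMap.comp_apply] at hq
    have : pmD_norm t n (pmD_P s (a.2.2 : (G ⧸ Γ) → ℂ)) = pmD_norm t n (a.2.2 : (G ⧸ Γ) → ℂ) := by
      conv_rhs => rw [← hq]
      rw [pmD_norm_P t n ht]
    rw [map_sub, this, sub_self]
  -- the kernel of `Φ` is at most one-dimensional
  have hker : finrank ℂ (LinearMap.ker Φ) ≤ 1 := by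
    refine pmD_finrank_ker_le_one Φ
      ((LinearMap.proj ((1 : G) : G ⧸ Γ) : ((G ⧸ Γ) → ℂ) →ₗ[ℂ] ℂ) ∘ₗ VS.subtype ∘ₗ
        (LinearMap.fst ℂ VS VU) ∘ₗ (LinearMap.snd ℂ H (VS × VU))) ?_
    intro a ha h0
    change (a.2.1 : (G ⧸ Γ) → ℂ) ((1 : G) : G ⧸ Γ) = 0 at h0
    rw [hΦ, ← add_assoc] at ha
    obtain ⟨hψ, hconst⟩ := pmD_ker_aux Γ s t hst (hzs _ a.1.2) (hzu _ a.1.2) (hmemS a.2.1)
      (hmemU a.2.2) ha
    have hp0 : (a.2.1 : (G ⧸ Γ) → ℂ) = 0 := by
      funext x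
      rw [hconst x]
      exact h0
    rw [hψ, map_zero, hp0, zero_add, zero_add] at ha
    apply Prod.ext
    · exact Subtype.ext hψ
    · apply Prod.ext
      · exact Subtype.ext hp0
      · exact Subtype.ext ha
  have h1 := LinearMap.finrank_range_add_finrank_ker Φ
  rw [Module.finrank_prod, Module.finrank_prod] at h1
  have h2 := Submodule.finrank_mono hrange
  have h3 : finrank ℂ (LinearMap.ker D) +
      Nat.card (MulAction.orbitRel.Quotient (Subgroup.zpowers t) (G ⧸ Γ)) ≤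
        Fintype.card (G ⧸ Γ) + 1 :=
    pmD_finrank_ker_add_card_orbits_le (X := G ⧸ Γ) s t hst n hn ht ((1 : G) : G ⧸ Γ)
  omega

end Bound

section Central

variable {G : Type*} [Group G] (Γ : Subgroup G)

theorem pmD_smul_eq_of_central {z : G} (hzc : ∀ g, g * z = z * g) (hzΓ : z ∈ Γ) (x : G ⧸ Γ) :
    z • x = x := by
  induction x using QuotientGroup.induction_on with
  | H g =>
    rw [MulAction.Quotient.smul_coe, smul_eq_mul, QuotientGroup.eq, ← hzc, mul_inv_rev,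
      inv_mul_cancel_right]
    exact Γ.inv_mem hzΓ

/-- The Shapiro cocycle vanishes on central elements of order two lying in `Γ`. -/
theorem pmD_coc_central {z : G} (hzc : ∀ g, g * z = z * g) (hzΓ : z ∈ Γ) (hz2 : z * z = 1)
    (ψ : Additive Γ →+ ℂ) : pmD_coc Γ z ψ = 0 := by
  funext x
  have hk : pmD_kappa Γ z x = ⟨z, hzΓ⟩ := by
    apply Subtype.ext
    simp only [pmD_kappa, pmD_smul_eq_of_central Γ hzc hzΓ]
    rw [mul_assoc, ← hzc, inv_mul_cancel_left]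
  rw [pmD_coc_apply, hk, Pi.zero_apply]
  have h2 : ψ (Additive.ofMul ((⟨z, hzΓ⟩ : Γ) * ⟨z, hzΓ⟩)) = 0 := by
    have : ((⟨z, hzΓ⟩ : Γ) * ⟨z, hzΓ⟩) = 1 := Subtype.ext hz2
    rw [this, ofMul_one, map_zero]
  rw [ofMul_mul, map_add] at h2
  have h3 : (2 : ℂ) * ψ (Additive.ofMul (⟨z, hzΓ⟩ : Γ)) = 0 := by linear_combination h2
  exact (mul_eq_zero.mp h3).resolve_left two_ne_zero

/-- The value of the Shapiro cocycle at an element fixing the coset `x`. -/
theorem pmD_coc_apply_of_smul_eq {g : G} {x : G ⧸ Γ} (hx : g • x = x) (ψ : Additive Γ →+ ℂ)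
    (hmem : x.out⁻¹ * g * x.out ∈ Γ) :
    pmD_coc Γ g ψ x = ψ (Additive.ofMul (⟨x.out⁻¹ * g * x.out, hmem⟩ : Γ)) := by
  rw [pmD_coc_apply]
  congr 2
  apply Subtype.ext
  simp only [pmD_kappa, hx]

end Central

end Fermat.Agent.Lib.Period
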