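import Fermat.Agent.Lib.Period.PeriodMap

set_option autoImplicit false

/-!
# S21, analytic side (P4, P5): periods vanish on parabolic elements
-/

open UpperHalfPlane Filter Topology Function Complex CongruenceSubgroup ModularCurve
  ModularCurve.Period Matrix Matrix.SpecialLinearGroup
open scoped Manifold MatrixGroups ModularForm

namespace Fermat.Agent.Lib.Period

open Fermat.Agent.Lib.ES Fermat.Agent.Lib.RR

lemma pmP_det_eq (g : SL(2, ℤ)) : g 0 0 * g 1 1 - g 0 1 * g 1 0 = 1 := by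
  have := g.det_coe
  rwa [Matrix.det_fin_two] at this

/-- An element of `SL(2, ℤ)` whose first column is `(1, 0)` is a power of `T`. -/
lemma pmP_eq_T_zpow_of_col (M : SL(2, ℤ)) (h00 : M 0 0 = 1) (h10 : M 1 0 = 0) :
    M = ModularGroup.T ^ (M 0 1) := by
  have hdet := pmP_det_eq M
  rw [h00, h10] at hdet
  have h11 : M 1 1 = 1 := by linarith
  ext i j
  rw [ModularGroup.coe_T_zpow]
  fin_cases i <;> fin_cases j <;> simp [h00, h10, h11]

/-- An element of `SL(2, ℤ)` fixing a primitive integer vector is conjugate to a power of `T`. -/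
lemma pmP_exists_conj_of_fixed_coprime (γ : SL(2, ℤ)) {p r : ℤ} (hpr : IsCoprime p r)
    (h1 : γ 0 0 * p + γ 0 1 * r = p) (h2 : γ 1 0 * p + γ 1 1 * r = r) :
    ∃ (δ : SL(2, ℤ)) (m : ℤ), γ = δ * ModularGroup.T ^ m * δ⁻¹ := by
  obtain ⟨δ, hδ0, hδ1⟩ := hpr.exists_SL2_col 0
  have hδdet := pmP_det_eq δ
  refine ⟨δ, (δ⁻¹ * γ * δ) 0 1, ?_⟩
  have hM : δ * (δ⁻¹ * γ * δ) = γ * δ := by group
  have e1 : δ 0 0 * (δ⁻¹ * γ * δ) 0 0 + δ 0 1 * (δ⁻¹ * γ * δ) 1 0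
      = γ 0 0 * δ 0 0 + γ 0 1 * δ 1 0 := by
    have := congrArg (fun A : SL(2, ℤ) => A 0 0) hM
    simpa only [coe_mul, Matrix.mul_apply, Fin.sum_univ_two] using this
  have e2 : δ 1 0 * (δ⁻¹ * γ * δ) 0 0 + δ 1 1 * (δ⁻¹ * γ * δ) 1 0
      = γ 1 0 * δ 0 0 + γ 1 1 * δ 1 0 := by
    have := congrArg (fun A : SL(2, ℤ) => A 1 0) hM
    simpa only [coe_mul, Matrix.mul_apply, Fin.sum_univ_two] using this
  rw [hδ0, hδ1] at e1 e2 hδdet
  rw [h1] at e1
  rw [h2] at e2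
  have key : δ⁻¹ * γ * δ = ModularGroup.T ^ ((δ⁻¹ * γ * δ) 0 1) := by
    apply pmP_eq_T_zpow_of_col
    · linear_combination (δ 1 1) * e1 - (δ 0 1) * e2 - ((δ⁻¹ * γ * δ) 0 0 - 1) * hδdet
    · linear_combination p * e2 - r * e1 - ((δ⁻¹ * γ * δ) 1 0) * hδdet
  rw [← key]
  group

/-- An element of `SL(2, ℤ)` of trace `2` is conjugate to a power of `T`. -/
lemma pmP_exists_conj_of_trace_two (γ : SL(2, ℤ)) (htr : γ 0 0 + γ 1 1 = 2) :
    ∃ (δ : SL(2, ℤ)) (m : ℤ), γ = δ * ModularGroup.T ^ m * δ⁻¹ := by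
  have hdet := pmP_det_eq γ
  by_cases hv : 1 - γ 1 1 = 0 ∧ γ 1 0 = 0
  · -- `γ` is already upper triangular unipotent
    obtain ⟨hd, hc⟩ := hv
    have ha : γ 0 0 = 1 := by linarith
    refine ⟨1, γ 0 1, ?_⟩
    rw [one_mul, inv_one, mul_one]
    exact pmP_eq_T_zpow_of_col γ ha hc
  · have hg : 0 < Int.gcd (1 - γ 1 1) (γ 1 0) := by
      rw [Int.gcd_pos_iff]
      by_contra hcon
      push Not at hcon
      exact hv hcon
    obtain ⟨p, r, hpr, hx, hy⟩ := Int.exists_gcd_one hg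
    set g : ℤ := (Int.gcd (1 - γ 1 1) (γ 1 0) : ℤ) with hgdef
    have hg0 : g ≠ 0 := by
      have : (0 : ℤ) < g := by rw [hgdef]; exact_mod_cast hg
      exact this.ne'
    have hcop : IsCoprime p r := Int.isCoprime_iff_gcd_eq_one.mpr hpr
    refine pmP_exists_conj_of_fixed_coprime γ hcop ?_ ?_
    · apply mul_right_cancel₀ hg0
      have e1 : (γ 0 0 * p + γ 0 1 * r) * g = γ 0 0 * (p * g) + γ 0 1 * (r * g) := by ring
      rw [e1, ← hx, ← hy]
      linear_combination (-1 : ℤ) * hdet + htr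
    · apply mul_right_cancel₀ hg0
      have e1 : (γ 1 0 * p + γ 1 1 * r) * g = γ 1 0 * (p * g) + γ 1 1 * (r * g) := by ring
      rw [e1, ← hx, ← hy]
      ring

/-- An element of `SL(2, ℤ)` with `trace ^ 2 = 4` is, up to sign, conjugate to a power of `T`. -/
lemma pmP_exists_conj_of_trace_sq (γ : SL(2, ℤ))
    (htr : ((γ : Matrix (Fin 2) (Fin 2) ℤ)).trace ^ 2 = 4) :
    ∃ (δ : SL(2, ℤ)) (m : ℤ), γ = δ * ModularGroup.T ^ m * δ⁻¹ ∨
      -γ = δ * ModularGroup.T ^ m * δ⁻¹ := by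
  rw [Matrix.trace_fin_two] at htr
  have h : γ 0 0 + γ 1 1 = 2 ∨ γ 0 0 + γ 1 1 = -2 := by
    have : (γ 0 0 + γ 1 1 - 2) * (γ 0 0 + γ 1 1 + 2) = 0 := by linear_combination htr
    rcases mul_eq_zero.mp this with h | h
    · left; linarith
    · right; linarith
  rcases h with h | h
  · obtain ⟨δ, m, hm⟩ := pmP_exists_conj_of_trace_two γ h
    exact ⟨δ, m, Or.inl hm⟩
  · have h' : (-γ) 0 0 + (-γ) 1 1 = 2 := by
      simp only [Matrix.SpecialLinearGroup.coe_neg, Matrix.neg_apply]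
      linarith
    obtain ⟨δ, m, hm⟩ := pmP_exists_conj_of_trace_two (-γ) h'
    exact ⟨δ, m, Or.inr hm⟩

/-! ### Vanishing of the periods on parabolic elements -/

lemma pmP_tendsto_vadd (m : ℝ) : Tendsto (fun w : ℍ => m +ᵥ w) atImInfty atImInfty := by
  rw [atImInfty, tendsto_comap_iff]
  have : (UpperHalfPlane.im ∘ fun w : ℍ => m +ᵥ w) = UpperHalfPlane.im := by
    funext w; simp [UpperHalfPlane.vadd_im]
  rw [this]
  exact tendsto_comap

lemma pmP_smul_conj_smul {γ δ : SL(2, ℤ)} {m : ℤ}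
    (h : γ = δ * ModularGroup.T ^ m * δ⁻¹ ∨ -γ = δ * ModularGroup.T ^ m * δ⁻¹) (w : ℍ) :
    γ • (δ • w) = δ • ((m : ℝ) +ᵥ w) := by
  rw [← UpperHalfPlane.modular_T_zpow_smul]
  rcases h with h | h
  · rw [h, ← mul_smul, ← mul_smul]
    congr 1
    group
  · rw [← ModularGroup.SL_neg_smul, h, ← mul_smul, ← mul_smul]
    congr 1
    group

/-- The period along an element which is, up to sign, conjugate in `SL(2, ℤ)` to a power of `T`
vanishes. -/
theorem pmP_periodMap_eq_zero_of_conj (N : ℕ) [NeZero N] (f : CuspForm (Gamma0 N) 2)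
    (γ : Gamma0 N) (δ : SL(2, ℤ)) (m : ℤ)
    (h : (γ : SL(2, ℤ)) = δ * ModularGroup.T ^ m * δ⁻¹ ∨
      -(γ : SL(2, ℤ)) = δ * ModularGroup.T ^ m * δ⁻¹) :
    periodMap N f (Additive.ofMul γ) = 0 := by
  have hF := pmP_prim_spec N f
  obtain ⟨L, hL⟩ := hF.2.2.2 δ
  have hc : ∀ w : ℍ, pmP_prim N f (δ • ((m : ℝ) +ᵥ w)) - pmP_prim N f (δ • w)
      = periodMap N f (Additive.ofMul γ) := by
    intro w
    rw [pmP_periodMap_apply' N f γ (δ • w), pmP_smul_conj_smul h w]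
  have h1 : Tendsto (fun w : ℍ => pmP_prim N f (δ • ((m : ℝ) +ᵥ w)) - pmP_prim N f (δ • w))
      atImInfty (𝓝 (L - L)) := (hL.comp (pmP_tendsto_vadd (m : ℝ))).sub hL
  rw [sub_self] at h1
  have h2 : (fun w : ℍ => pmP_prim N f (δ • ((m : ℝ) +ᵥ w)) - pmP_prim N f (δ • w))
      = fun _ => periodMap N f (Additive.ofMul γ) := funext hc
  rw [h2] at h1
  exact tendsto_nhds_unique tendsto_const_nhds h1

/-- (P4) The period homomorphism of a weight two cusp form is parabolic. -/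
theorem pmP_periodMap_mem_parabolicHoms (N : ℕ) [NeZero N] (f : CuspForm (Gamma0 N) 2) :
    periodMap N f ∈ parabolicHoms ℂ (Gamma0 N) ℂ := by
  rw [mem_parabolicHoms_iff]
  intro γ hγ
  obtain ⟨δ, m, h⟩ := pmP_exists_conj_of_trace_sq (γ : SL(2, ℤ)) hγ
  exact pmP_periodMap_eq_zero_of_conj N f γ δ m h

/-- (P5) The translates `w ↦ F (δ • w)` of the canonical primitive are `N`-periodic. -/
theorem pmP_prim_smul_vadd (N : ℕ) [NeZero N] (f : CuspForm (Gamma0 N) 2) (δ : SL(2, ℤ))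
    (w : ℍ) :
    pmP_prim N f (δ • ((((N : ℤ) : ℝ)) +ᵥ w)) = pmP_prim N f (δ • w) := by
  set γ : Gamma0 N := ⟨δ * ModularGroup.T ^ (N : ℤ) * δ⁻¹, pmP_conj_T_pow_mem N δ⟩ with hγ
  have h : (γ : SL(2, ℤ)) = δ * ModularGroup.T ^ (N : ℤ) * δ⁻¹ ∨
      -(γ : SL(2, ℤ)) = δ * ModularGroup.T ^ (N : ℤ) * δ⁻¹ := Or.inl rfl
  have h0 := pmP_periodMap_eq_zero_of_conj N f γ δ (N : ℤ) h
  rw [pmP_periodMap_apply' N f γ (δ • w), pmP_smul_conj_smul h w] at h0
  exact sub_eq_zero.mp h0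

/-- (P5) The translates of an equivariant primitive are holomorphic. -/
theorem pmP_mdifferentiable_comp_smul {F f : ℍ → ℂ}
    (hF : ∀ τ : ℍ, HasDerivAt (F ∘ ofComplex) (f τ) ↑τ) (δ : SL(2, ℤ)) :
    MDiff (fun w : ℍ => F (δ • w)) := by
  rw [UpperHalfPlane.mdifferentiable_iff]
  intro z hz
  exact (pmP_hasDerivAt_comp_smul hF δ ⟨z, hz⟩).differentiableAt.differentiableWithinAt

end Fermat.Agent.Lib.Period
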