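import Fermat.Agent.Lib.Period.Prim
import Fermat.Agent.Lib.ES.Cocycle
import Fermat.Agent.Lib.RR.Core
import Fermat.Prelude.Def_ModularCurve_PeriodHomPair

set_option autoImplicit false

/-!
# S21, analytic side (P1, P2): equivariant primitives of weight two cusp forms, linearity of the
period map
-/

open UpperHalfPlane Filter Topology Function Complex CongruenceSubgroup ModularCurve
  ModularCurve.Period
open scoped Manifold MatrixGroups ModularForm

namespace Fermat.Agent.Lib.Period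

open Fermat.Agent.Lib.ES Fermat.Agent.Lib.RR

/-- Chain rule: if `F' = f` on `ℍ` then `(F ∘ δ)' = f ∣[2] δ`. -/
lemma pmP_hasDerivAt_comp_smul {F f : ℍ → ℂ}
    (hF : ∀ τ : ℍ, HasDerivAt (F ∘ ofComplex) (f τ) ↑τ) (δ : SL(2, ℤ)) (τ : ℍ) :
    HasDerivAt ((fun w : ℍ => F (δ • w)) ∘ ofComplex) ((f ∣[(2 : ℤ)] δ) τ) ↑τ := by
  have hden : mobDen (δ : Matrix (Fin 2) (Fin 2) ℤ) (τ : ℂ) ≠ 0 := mobDen_coe_ne_zero δ τ
  have h1 := hasDerivAt_mob (δ : Matrix (Fin 2) (Fin 2) ℤ) hden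
  have h2 : HasDerivAt (F ∘ ofComplex) (f (δ • τ))
      (mob (δ : Matrix (Fin 2) (Fin 2) ℤ) (τ : ℂ)) := by
    rw [mob_coe]; exact hF (δ • τ)
  have h3 := h2.comp (τ : ℂ) h1
  have hval : f (δ • τ) * (((δ : Matrix (Fin 2) (Fin 2) ℤ).det : ℂ) /
      mobDen (δ : Matrix (Fin 2) (Fin 2) ℤ) (τ : ℂ) ^ 2) = (f ∣[(2 : ℤ)] δ) τ := by
    rw [ModularForm.SL_slash_apply, mobDen_coe, Matrix.SpecialLinearGroup.det_coe]
    simp only [Int.cast_one, one_div, zpow_neg]
    norm_cast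
  rw [hval] at h3
  refine h3.congr_of_eventuallyEq ?_
  have hopen : {z : ℂ | 0 < z.im} ∈ 𝓝 (τ : ℂ) :=
    (isOpen_lt continuous_const Complex.continuous_im).mem_nhds τ.im_pos
  filter_upwards [hopen] with z hz
  simp only [comp_apply]
  have e1 : ofComplex z = ⟨z, hz⟩ := ofComplex_apply_of_im_pos hz
  have e2 : mob (δ : Matrix (Fin 2) (Fin 2) ℤ) z = ((δ • (⟨z, hz⟩ : ℍ) : ℍ) : ℂ) :=
    mob_coe δ ⟨z, hz⟩
  rw [e1, e2, ofComplex_apply]

/-- Two primitives of the same function on `ℍ` differ by a constant. -/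
lemma pmP_sub_const_of_hasDerivAt {F G f : ℍ → ℂ}
    (hF : ∀ τ : ℍ, HasDerivAt (F ∘ ofComplex) (f τ) ↑τ)
    (hG : ∀ τ : ℍ, HasDerivAt (G ∘ ofComplex) (f τ) ↑τ) (z w : ℍ) :
    F z - G z = F w - G w := by
  have h : ∀ u : ℂ, 0 < u.im → HasDerivAt (fun u => (F ∘ ofComplex) u - (G ∘ ofComplex) u) 0 u := by
    intro u hu
    have h1 := hF ⟨u, hu⟩
    have h2 := hG ⟨u, hu⟩
    have h3 := h1.sub h2
    rw [sub_self] at h3
    exact h3
  have := const_of_hasDerivAt_zero h z.im_pos w.im_pos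
  simpa using this

/-- A primitive of `0` tending to `0` at `i∞` vanishes. -/
lemma pmP_eq_of_hasDerivAt_of_tendsto {F G f : ℍ → ℂ}
    (hF : ∀ τ : ℍ, HasDerivAt (F ∘ ofComplex) (f τ) ↑τ)
    (hG : ∀ τ : ℍ, HasDerivAt (G ∘ ofComplex) (f τ) ↑τ)
    (hF0 : Tendsto F atImInfty (𝓝 0)) (hG0 : Tendsto G atImInfty (𝓝 0)) : F = G := by
  funext z
  have h1 : Tendsto (fun w : ℍ => F w - G w) atImInfty (𝓝 (0 - 0)) := hF0.sub hG0
  have h2 : (fun w : ℍ => F w - G w) = fun _ => F z - G z := by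
    funext w; exact pmP_sub_const_of_hasDerivAt hF hG w z
  rw [h2, sub_zero] at h1
  have := tendsto_nhds_unique h1 tendsto_const_nhds
  exact sub_eq_zero.mp this.symm ▸ rfl

/-! ### Periodicity of the translates -/

lemma pmP_conj_T_pow_mem (N : ℕ) (δ : SL(2, ℤ)) :
    δ * ModularGroup.T ^ (N : ℤ) * δ⁻¹ ∈ Gamma0 N := by
  have h1 : ModularGroup.T ^ (N : ℤ) ∈ CongruenceSubgroup.Gamma N := by
    simpa using ModularGroup_T_pow_mem_Gamma (N : ℤ) (N : ℤ) dvd_rfl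
  have h2 : δ * ModularGroup.T ^ (N : ℤ) * δ⁻¹ ∈ CongruenceSubgroup.Gamma N :=
    (Gamma_normal N).conj_mem _ h1 δ
  rw [Gamma_mem] at h2
  rw [Gamma0_mem]
  exact h2.2.2.1

lemma pmP_slash_T_pow_apply (g : ℍ → ℂ) (k : ℤ) (n : ℤ) (z : ℍ) :
    (g ∣[k] (ModularGroup.T ^ n)) z = g ((n : ℝ) +ᵥ z) := by
  rw [ModularForm.SL_slash_apply, UpperHalfPlane.modular_T_zpow_smul,
    ModularGroup.denom_apply (ModularGroup.T ^ n) z, ModularGroup.coe_T_zpow]
  simp

lemma pmP_slash_vadd {N : ℕ} {f : ℍ → ℂ} {k : ℤ} (hf : f ∈ MF N k) (δ : SL(2, ℤ)) (z : ℍ) :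
    (f ∣[k] δ) (((N : ℤ) : ℝ) +ᵥ z) = (f ∣[k] δ) z := by
  rw [← pmP_slash_T_pow_apply (f ∣[k] δ) k (N : ℤ) z, ← SlashAction.slash_mul]
  have : δ * ModularGroup.T ^ (N : ℤ) = (δ * ModularGroup.T ^ (N : ℤ) * δ⁻¹) * δ := by group
  rw [this, SlashAction.slash_mul, slash_eq_of_mem_MF hf (pmP_conj_T_pow_mem N δ)]

lemma pmP_periodic_slash {N : ℕ} {f : ℍ → ℂ} {k : ℤ} (hf : f ∈ MF N k) (δ : SL(2, ℤ)) :
    Periodic ((f ∣[k] δ) ∘ ofComplex) (N : ℝ) := by
  intro w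
  by_cases hw : 0 < w.im
  · have hw' : 0 < (w + (N : ℝ)).im := by simpa using hw
    simp only [comp_apply, ofComplex_apply_of_im_pos hw', ofComplex_apply_of_im_pos hw]
    have := pmP_slash_vadd hf δ ⟨w, hw⟩
    convert this using 2
    ext
    simp [add_comm]
  · have hw0 : w.im ≤ 0 := not_lt.mp hw
    have hw' : (w + (N : ℝ)).im ≤ 0 := by simpa using hw0
    simp only [comp_apply, ofComplex_apply_of_im_nonpos hw', ofComplex_apply_of_im_nonpos hw0]

/-! ### Existence of the equivariant primitive -/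

/-- Every translate `f ∣[2] δ` of a weight two cusp form has a primitive tending to `0` at `i∞`. -/
lemma pmP_exists_primitive_slash {N : ℕ} [NeZero N] {f : ℍ → ℂ} (hf : f ∈ CF N 2) (δ : SL(2, ℤ)) :
    ∃ G : ℍ → ℂ, (∀ τ : ℍ, HasDerivAt (G ∘ ofComplex) ((f ∣[(2 : ℤ)] δ) τ) ↑τ) ∧
      Tendsto G atImInfty (𝓝 0) := by
  have hN : (0 : ℝ) < (N : ℝ) := by exact_mod_cast Nat.pos_of_ne_zero (NeZero.ne N)
  have hMF : f ∈ MF N 2 := CF_le_MF N 2 hf
  exact pmP_exists_primitive hN (mdifferentiable_slash (mdifferentiable_of_mem_MF hMF) δ)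
    (pmP_periodic_slash hMF δ) (isZeroAtImInfty_slash hf δ)

theorem pmP_hasEquivariantPrimitive (N : ℕ) [NeZero N] (f : CuspForm (Gamma0 N) 2) :
    ∃ F : ℍ → ℂ, HasEquivariantPrimitive N f F := by
  have hCF : (⇑f : ℍ → ℂ) ∈ CF N 2 := coe_mem_CF f
  have hMF : (⇑f : ℍ → ℂ) ∈ MF N 2 := CF_le_MF N 2 hCF
  obtain ⟨F, hF, hF0⟩ := pmP_exists_primitive_slash hCF 1
  rw [SlashAction.slash_one] at hF
  refine ⟨F, hF, hF0, ?_, ?_⟩
  · intro γ
    refine ⟨F ((γ : SL(2, ℤ)) • UpperHalfPlane.I) - F UpperHalfPlane.I, fun z => ?_⟩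
    have h1 := pmP_hasDerivAt_comp_smul hF (γ : SL(2, ℤ))
    rw [slash_eq_of_mem_MF hMF γ.2] at h1
    exact pmP_sub_const_of_hasDerivAt h1 hF z UpperHalfPlane.I
  · intro δ
    obtain ⟨G, hG, hG0⟩ := pmP_exists_primitive_slash hCF δ
    have h1 := pmP_hasDerivAt_comp_smul hF δ
    refine ⟨F (δ • UpperHalfPlane.I) - G UpperHalfPlane.I, ?_⟩
    have h2 : (fun w : ℍ => F (δ • w)) =
        fun w => G w + (F (δ • UpperHalfPlane.I) - G UpperHalfPlane.I) := by
      funext w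
      have := pmP_sub_const_of_hasDerivAt h1 hG w UpperHalfPlane.I
      linear_combination this
    rw [h2]
    simpa using hG0.add_const (F (δ • UpperHalfPlane.I) - G UpperHalfPlane.I)

/-! ### The canonical primitive and linearity of the period map -/

/-- The canonical primitive of a weight two cusp form (the one vanishing at `i∞`). -/
noncomputable def pmP_prim (N : ℕ) [NeZero N] (f : CuspForm (Gamma0 N) 2) : ℍ → ℂ :=
  (pmP_hasEquivariantPrimitive N f).choose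

lemma pmP_prim_spec (N : ℕ) [NeZero N] (f : CuspForm (Gamma0 N) 2) :
    HasEquivariantPrimitive N f (pmP_prim N f) :=
  (pmP_hasEquivariantPrimitive N f).choose_spec

lemma pmP_prim_unique {N : ℕ} [NeZero N] {f : CuspForm (Gamma0 N) 2} {F : ℍ → ℂ}
    (hF : HasEquivariantPrimitive N f F) : F = pmP_prim N f :=
  pmP_eq_of_hasDerivAt_of_tendsto hF.1 (pmP_prim_spec N f).1 hF.2.1 (pmP_prim_spec N f).2.1

lemma pmP_hasEquivariantPrimitive_add {N : ℕ} {f g : CuspForm (Gamma0 N) 2} {F G : ℍ → ℂ}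
    (hF : HasEquivariantPrimitive N f F) (hG : HasEquivariantPrimitive N g G) :
    HasEquivariantPrimitive N (f + g) (F + G) := by
  refine ⟨fun τ => ?_, ?_, fun γ => ?_, fun δ => ?_⟩
  · have := (hF.1 τ).add (hG.1 τ)
    exact this
  · have := hF.2.1.add hG.2.1
    rw [add_zero] at this
    exact this
  · obtain ⟨c, hc⟩ := hF.2.2.1 γ
    obtain ⟨d, hd⟩ := hG.2.2.1 γ
    refine ⟨c + d, fun z => ?_⟩
    simp only [Pi.add_apply]
    linear_combination hc z + hd z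
  · obtain ⟨L, hL⟩ := hF.2.2.2 δ
    obtain ⟨M, hM⟩ := hG.2.2.2 δ
    exact ⟨L + M, hL.add hM⟩

lemma pmP_hasEquivariantPrimitive_smul {N : ℕ} {f : CuspForm (Gamma0 N) 2} {F : ℍ → ℂ} (a : ℂ)
    (hF : HasEquivariantPrimitive N f F) :
    HasEquivariantPrimitive N (a • f) (a • F) := by
  refine ⟨fun τ => ?_, ?_, fun γ => ?_, fun δ => ?_⟩
  · have := (hF.1 τ).const_smul a
    exact this
  · have := hF.2.1.const_smul a
    rw [smul_zero] at this
    exact this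
  · obtain ⟨c, hc⟩ := hF.2.2.1 γ
    refine ⟨a * c, fun z => ?_⟩
    simp only [Pi.smul_apply, smul_eq_mul]
    linear_combination a * hc z
  · obtain ⟨L, hL⟩ := hF.2.2.2 δ
    exact ⟨a • L, hL.const_smul a⟩

lemma pmP_prim_add (N : ℕ) [NeZero N] (f g : CuspForm (Gamma0 N) 2) :
    pmP_prim N (f + g) = pmP_prim N f + pmP_prim N g :=
  (pmP_prim_unique (pmP_hasEquivariantPrimitive_add (pmP_prim_spec N f) (pmP_prim_spec N g))).symm

lemma pmP_prim_smul (N : ℕ) [NeZero N] (a : ℂ) (f : CuspForm (Gamma0 N) 2) :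
    pmP_prim N (a • f) = a • pmP_prim N f :=
  (pmP_prim_unique (pmP_hasEquivariantPrimitive_smul a (pmP_prim_spec N f))).symm

theorem pmP_periodMap_apply (N : ℕ) [NeZero N] (f : CuspForm (Gamma0 N) 2) (γ : Gamma0 N) :
    periodMap N f (Additive.ofMul γ) =
      pmP_prim N f ((γ : SL(2, ℤ)) • UpperHalfPlane.I) - pmP_prim N f UpperHalfPlane.I := by
  obtain ⟨F₀, h₀, h⟩ := periodMap_def N f (pmP_prim_spec N f)
  have hF₀ : F₀ = pmP_prim N f := pmP_prim_unique h₀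
  subst hF₀
  rw [h]
  rfl

/-- The period of `f` along `γ` computed at any base point. -/
theorem pmP_periodMap_apply' (N : ℕ) [NeZero N] (f : CuspForm (Gamma0 N) 2) (γ : Gamma0 N)
    (z : ℍ) :
    periodMap N f (Additive.ofMul γ) =
      pmP_prim N f ((γ : SL(2, ℤ)) • z) - pmP_prim N f z := by
  rw [pmP_periodMap_apply]
  obtain ⟨c, hc⟩ := (pmP_prim_spec N f).2.2.1 γ
  rw [hc z, hc UpperHalfPlane.I]

/-- The period of `f` along `γ` computed with any equivariant primitive at any base point. -/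
theorem pmP_periodMap_apply_of {N : ℕ} [NeZero N] {f : CuspForm (Gamma0 N) 2} {F : ℍ → ℂ}
    (hF : HasEquivariantPrimitive N f F) (γ : Gamma0 N) (z : ℍ) :
    periodMap N f (Additive.ofMul γ) = F ((γ : SL(2, ℤ)) • z) - F z := by
  rw [pmP_prim_unique hF]
  exact pmP_periodMap_apply' N f γ z

/-- The period map as a linear map. -/
noncomputable def pmP_periodLin (N : ℕ) [NeZero N] :
    CuspForm (Gamma0 N) 2 →ₗ[ℂ] (Additive (Gamma0 N) →+ ℂ) where
  toFun f := periodMap N f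
  map_add' f g := by
    refine AddMonoidHom.ext fun γ => ?_
    obtain ⟨γ, rfl⟩ := Additive.ofMul.surjective γ
    simp only [AddMonoidHom.add_apply, pmP_periodMap_apply, pmP_prim_add, Pi.add_apply]
    ring
  map_smul' a f := by
    refine AddMonoidHom.ext fun γ => ?_
    obtain ⟨γ, rfl⟩ := Additive.ofMul.surjective γ
    simp only [RingHom.id_apply, AddMonoidHom.smul_apply, pmP_periodMap_apply, pmP_prim_smul,
      Pi.smul_apply, smul_eq_mul]
    ring

@[simp] lemma pmP_periodLin_apply (N : ℕ) [NeZero N] (f : CuspForm (Gamma0 N) 2) :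
    pmP_periodLin N f = periodMap N f := rfl

theorem pmP_existsPeriodMapLinear (N : ℕ) [NeZero N] : ExistsPeriodMapLinear N :=
  ⟨pmP_periodLin N, fun _ => rfl⟩

end Fermat.Agent.Lib.Period
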