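import Mathlib

set_option autoImplicit false

/-!
# S21, analytic side (P1): primitives of periodic holomorphic functions decaying at `i∞`

If `g : ℍ → ℂ` is holomorphic, `h`-periodic and tends to `0` at `i∞`, then `g` has a primitive `G`
on `ℍ` which is again `h`-periodic and tends to `0` at `i∞`.  (`g = q φ(q)` with `φ` holomorphic on the
unit disc, and a holomorphic function on a disc has a primitive.)
-/

open UpperHalfPlane Filter Topology Function Complex
open scoped Manifold

namespace Fermat.Agent.Lib.Period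

local notation "𝕢" => Periodic.qParam

lemma pmP_hasDerivAt_qParam (h : ℝ) (z : ℂ) :
    HasDerivAt (𝕢 h) (𝕢 h z * (2 * Real.pi * Complex.I / h)) z := by
  have h1 : HasDerivAt (fun w : ℂ => 2 * Real.pi * Complex.I * w / h)
      (2 * Real.pi * Complex.I / h) z := by
    simpa using ((hasDerivAt_id z).const_mul (2 * Real.pi * Complex.I)).div_const (h : ℂ)
  have h2 := h1.cexp
  have h3 : (fun w : ℂ => cexp (2 * Real.pi * Complex.I * w / h)) = 𝕢 h := by
    funext w; simp [Periodic.qParam]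
  rw [h3] at h2
  have h4 : cexp (2 * Real.pi * Complex.I * z / h) = 𝕢 h z := by simp [Periodic.qParam]
  rw [h4] at h2
  exact h2

/-- The `ofComplex` chart is eventually the identity near a point of the upper half plane. -/
lemma pmP_eventuallyEq_ofComplex (τ : ℍ) :
    ∀ᶠ z : ℂ in 𝓝 (τ : ℂ), ((ofComplex z : ℍ) : ℂ) = z := by
  have : {z : ℂ | 0 < z.im} ∈ 𝓝 (τ : ℂ) :=
    (isOpen_lt continuous_const Complex.continuous_im).mem_nhds τ.im_pos
  filter_upwards [this] with z hz
  rw [ofComplex_apply_of_im_pos hz]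

theorem pmP_exists_primitive {g : ℍ → ℂ} {h : ℝ} (hh : 0 < h) (hg : MDiff g)
    (hper : Periodic (g ∘ ofComplex) h) (hzero : IsZeroAtImInfty g) :
    ∃ G : ℍ → ℂ, (∀ τ : ℍ, HasDerivAt (G ∘ ofComplex) (g τ) ↑τ) ∧ Tendsto G atImInfty (𝓝 0) := by
  set φ : ℂ → ℂ := cuspFunction h g with hφ
  have hφd : DifferentiableOn ℂ φ (Metric.ball 0 1) :=
    differentiableOn_cuspFunction_ball hh hper hg hzero.isBoundedAtImInfty
  have hφ0 : φ 0 = 0 := hzero.cuspFunction_apply_zero hh
  -- `ψ = φ / q`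
  have hψd : DifferentiableOn ℂ (dslope φ 0) (Metric.ball 0 1) :=
    (differentiableOn_dslope (Metric.ball_mem_nhds 0 one_pos)).mpr hφd
  obtain ⟨Ψ, hΨ0, hΨ⟩ := (hψd.isExactOn_ball).with_val_at 0 0
  have hψ : ∀ q : ℂ, q * dslope φ 0 q = φ q := by
    intro q
    have := sub_smul_dslope φ 0 q
    simpa [hφ0] using this
  refine ⟨fun τ => (h / (2 * Real.pi * Complex.I)) * Ψ (𝕢 h τ), ?_, ?_⟩
  · intro τ
    have hq : 𝕢 h τ ∈ Metric.ball (0 : ℂ) 1 := by
      rw [mem_ball_zero_iff]
      exact Periodic.norm_qParam_lt_one hh τ.im_pos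
    have h1 : HasDerivAt (fun z : ℂ => (h / (2 * Real.pi * Complex.I)) * Ψ (𝕢 h z))
        ((h / (2 * Real.pi * Complex.I)) *
          (dslope φ 0 (𝕢 h τ) * (𝕢 h τ * (2 * Real.pi * Complex.I / h)))) τ :=
      ((hΨ _ hq).comp (τ : ℂ) (pmP_hasDerivAt_qParam h τ)).const_mul _
    have h2 : (h / (2 * Real.pi * Complex.I)) *
          (dslope φ 0 (𝕢 h τ) * (𝕢 h τ * (2 * Real.pi * Complex.I / h))) = g τ := by
      have hne : (2 * Real.pi * Complex.I : ℂ) ≠ 0 := Complex.two_pi_I_ne_zero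
      have hh' : (h : ℂ) ≠ 0 := by exact_mod_cast hh.ne'
      rw [← eq_cuspFunction τ hh.ne' hper, ← hφ, ← hψ]
      field_simp
    rw [h2] at h1
    refine h1.congr_of_eventuallyEq ?_
    filter_upwards [pmP_eventuallyEq_ofComplex τ] with z hz
    simp only [comp_apply, hz]
  · have hcont : ContinuousAt Ψ 0 :=
      (hΨ 0 (Metric.mem_ball_self one_pos)).continuousAt
    have h1 : Tendsto (fun τ : ℍ => Ψ (𝕢 h τ)) atImInfty (𝓝 0) := by
      have := hcont.tendsto.comp (qParam_tendsto_atImInfty hh)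
      rwa [hΨ0] at this
    simpa using h1.const_mul (h / (2 * Real.pi * Complex.I))

end Fermat.Agent.Lib.Period
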